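/-
LR / [PD], model side, part 4 (prefix `lrpdm_`): characters versus the space `Y`.

* `lrpdm_diff_mem_Y` : for a `U`-invariant primitive `P` and a `T`-invariant primitive `C` of the
  same character, `P - C ∈ Y`;
* `lrpdm_exists_char` (uses [TREE] = `lrpt_tree`) : every `y ∈ Y` is `P - C` for a character `x`
  killing the conjugates of the powers of `S`, `U = S T`, `T`;
* `lrpdm_nondeg` : the form `(x, x') ↦ ω(P - C, P' - C')` is non-degenerate.
-/
import Fermat.Agent.LR.PD.Model.Nondeg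
import Fermat.Agent.LR.PD.Tree

set_option autoImplicit false

open scoped MatrixGroups
open ModularGroup

namespace Fermat.Agent.LR

section CharY

theorem lrpdm_U_cube : lrpdm_U * lrpdm_U * lrpdm_U = (-1 : SL(2, ℤ)) := by decide

/-- a `U`-left-invariant function is `-1`-invariant -/
theorem lrpdm_neg_of_invU {A : Type*} (P : SL(2, ℤ) → A) (hPU : ∀ g, P (lrpdm_U * g) = P g)
    (g : SL(2, ℤ)) : P (-g) = P g := by
  have : -g = lrpdm_U * (lrpdm_U * (lrpdm_U * g)) := by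
    rw [← mul_assoc, ← mul_assoc, lrpdm_U_cube, neg_mul, one_mul]
  rw [this, hPU, hPU, hPU]

theorem lrpdm_invU_Tinv {A : Type*} (P : SL(2, ℤ) → A) (hPU : ∀ g, P (lrpdm_U * g) = P g)
    (g : SL(2, ℤ)) : P (T⁻¹ * g) = P (S * g) := by
  have := hPU (T⁻¹ * g)
  rw [← mul_assoc, lrpdm_U_mul_Tinv] at this
  exact this.symm

/-- invariance under `σ` implies invariance under `σ ^ n` -/
theorem lrpdm_inv_zpow {A : Type*} (F : SL(2, ℤ) → A) (σ : SL(2, ℤ))
    (hF : ∀ g, F (σ * g) = F g) (n : ℤ) (g : SL(2, ℤ)) : F (σ ^ n * g) = F g := by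
  have hF' : ∀ g, F (σ⁻¹ * g) = F g := fun g => by
    have := hF (σ⁻¹ * g); rw [mul_inv_cancel_left] at this; exact this.symm
  induction n using Int.induction_on generalizing g with
  | zero => rw [zpow_zero, one_mul]
  | succ i ih =>
    rw [zpow_add_one, mul_assoc, ih, hF]
  | pred i ih =>
    rw [zpow_sub_one, mul_assoc, ih, hF']

variable {k : Type*} [Field k] {Γ : Subgroup SL(2, ℤ)}

theorem lrpdm_mk_neg (hneg : (-1 : SL(2, ℤ)) ∈ Γ) (g : SL(2, ℤ)) :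
    ((-g : SL(2, ℤ)) : lrpdm_X Γ) = (g : lrpdm_X Γ) := by
  rw [QuotientGroup.eq]
  have : (-g)⁻¹ * g = (-1 : SL(2, ℤ)) := by
    have h1 : -g = g * (-1 : SL(2, ℤ)) := by rw [mul_neg, mul_one]
    have h2 : ((-1 : SL(2, ℤ)))⁻¹ = -1 := by decide
    rw [h1, mul_inv_rev, h2, mul_assoc, inv_mul_cancel, mul_one]
  rw [this]
  exact hneg

theorem lrpdm_mk_mul_mem (g : SL(2, ℤ)) (γ : Γ) :
    ((g * γ : SL(2, ℤ)) : lrpdm_X Γ) = (g : lrpdm_X Γ) :=
  QuotientGroup.mk_mul_of_mem g γ.2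

theorem lrpdm_diff_eq_of {x : Additive Γ →+ k} (F F' : SL(2, ℤ) → k) (hF : lrpdm_IsPrim Γ x F)
    (hF' : lrpdm_IsPrim Γ x F') (y : lrpdm_X Γ → k)
    (h : ∀ g : SL(2, ℤ), F g - F' g = y (g : lrpdm_X Γ)) : lrpdm_diff F F' hF hF' = y := by
  funext ξ
  induction ξ using QuotientGroup.induction_on with
  | H g => rw [lrpdm_diff_mk, h]

/-- `P - C ∈ Y`. -/
theorem lrpdm_diff_mem_Y {x : Additive Γ →+ k} (P C : SL(2, ℤ) → k) (hP : lrpdm_IsPrim Γ x P)
    (hC : lrpdm_IsPrim Γ x C) (hPU : ∀ g, P (lrpdm_U * g) = P g) (hCT : ∀ g, C (T * g) = C g) :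
    lrpdm_diff P C hP hC ∈ lrpdm_Y k Γ := by
  rw [lrpdm_mem_Y]
  intro ξ
  have hCT' : ∀ g, C (T⁻¹ * g) = C g := fun g => by
    have := hCT (T⁻¹ * g); rw [mul_inv_cancel_left] at this; exact this.symm
  induction ξ using QuotientGroup.induction_on with
  | H g =>
    simp only [lrpdm_smul_mk, lrpdm_diff_mk]
    rw [hCT', hCT', lrpdm_invU_Tinv P hPU, lrpdm_invU_Tinv P hPU, ← mul_assoc S S g,
      lrpdm_S_mul_S, neg_mul, one_mul, lrpdm_neg_of_invU P hPU]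
    ring

/-- A character of `Γ` with a `U`-invariant primitive kills `-1` and, if `2 ≠ 0`, the conjugates of
the powers of `S`. -/
theorem lrpdm_kills_S_of_invU (h2 : (2 : k) ≠ 0) {x : Additive Γ →+ k} (P : SL(2, ℤ) → k)
    (hP : lrpdm_IsPrim Γ x P) (hPU : ∀ g, P (lrpdm_U * g) = P g) : lrpdm_Kills Γ x S := by
  intro g n hmem
  set γ : Γ := ⟨_, hmem⟩ with hγ
  -- `γ * γ = ± 1`
  have hsq : ((γ * γ : Γ) : SL(2, ℤ)) = (-1 : SL(2, ℤ)) ^ n := by
    rw [Subgroup.coe_mul, hγ]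
    show g⁻¹ * S ^ n * g * (g⁻¹ * S ^ n * g) = (-1 : SL(2, ℤ)) ^ n
    have h1 : g⁻¹ * S ^ n * g * (g⁻¹ * S ^ n * g) = g⁻¹ * (S ^ n * S ^ n) * g := by group
    have h3 : (S * S : SL(2, ℤ)) ^ n = S ^ n * S ^ n := by
      rw [← zpow_add, ← two_mul, zpow_mul]
      have : (S : SL(2, ℤ)) ^ (2 : ℤ) = S * S := by
        rw [show (2 : ℤ) = 1 + 1 from rfl, zpow_add, zpow_one]
      rw [this]
    rw [h1, ← h3, lrpdm_S_mul_S]
    rcases Int.even_or_odd n with hn | hn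
    · rw [hn.neg_one_zpow]; group
    · rw [hn.neg_one_zpow]
      rw [mul_neg, mul_one, neg_mul, inv_mul_cancel]
  have hx2 : lrpdm_ev Γ x (γ * γ) = 0 := by
    have hP1 := hP g (γ * γ)
    rw [hsq] at hP1
    rcases Int.even_or_odd n with hn | hn
    · rw [hn.neg_one_zpow, mul_one] at hP1
      have := hP1; simpa using this.symm
    · rw [hn.neg_one_zpow, mul_neg, mul_one, lrpdm_neg_of_invU P hPU] at hP1
      have := hP1; simpa using this.symm
  rw [lrpdm_ev_mul] at hx2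
  have : (2 : k) * lrpdm_ev Γ x γ = 0 := by rw [two_mul]; exact hx2
  exact (mul_eq_zero.mp this).resolve_left h2

/-- A character with a `σ`-invariant primitive kills the conjugates of the powers of `σ`. -/
theorem lrpdm_kills_of_inv {x : Additive Γ →+ k} (σ : SL(2, ℤ)) (F : SL(2, ℤ) → k)
    (hF : lrpdm_IsPrim Γ x F) (hFσ : ∀ g, F (σ * g) = F g) : lrpdm_Kills Γ x σ := by
  intro g n hmem
  have h1 := hF g ⟨_, hmem⟩
  have h3 : g * (g⁻¹ * σ ^ n * g) = σ ^ n * g := by group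
  have h4 : F (g * ((⟨_, hmem⟩ : Γ) : SL(2, ℤ))) = F g := by
    show F (g * (g⁻¹ * σ ^ n * g)) = F g
    rw [h3, lrpdm_inv_zpow F σ hFσ]
  rw [h4] at h1
  simpa using h1.symm

/-- **(3a)** Every `y ∈ Y` comes from a character (uses [TREE]). -/
theorem lrpdm_exists_char (hneg : (-1 : SL(2, ℤ)) ∈ Γ) (h2 : (2 : k) ≠ 0) (y : lrpdm_X Γ → k)
    (hy : y ∈ lrpdm_Y k Γ) :
    ∃ (x : Additive Γ →+ k) (P C : SL(2, ℤ) → k), lrpdm_IsPrim Γ x P ∧ lrpdm_IsPrim Γ x C ∧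
      (∀ g, P (lrpdm_U * g) = P g) ∧ (∀ g, C (T * g) = C g) ∧
      lrpdm_Kills Γ x S ∧ lrpdm_Kills Γ x lrpdm_U ∧ lrpdm_Kills Γ x T ∧
      ∀ g : SL(2, ℤ), P g - C g = y (g : lrpdm_X Γ) := by
  have hY := (lrpdm_mem_Y y).mp hy
  let η : SL(2, ℤ) → k := fun g => y (T⁻¹ • (g : lrpdm_X Γ)) - y (g : lrpdm_X Γ)
  have hη1 : ∀ g, η (-g) = η g := fun g => by
    show y (T⁻¹ • ((-g : SL(2, ℤ)) : lrpdm_X Γ)) - y ((-g : SL(2, ℤ)) : lrpdm_X Γ) = _
    rw [lrpdm_mk_neg hneg]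
  have hη2 : ∀ g, η (S * g) = - η g := fun g => by
    have := hY (g : lrpdm_X Γ)
    show y (T⁻¹ • ((S * g : SL(2, ℤ)) : lrpdm_X Γ)) - y ((S * g : SL(2, ℤ)) : lrpdm_X Γ)
      = - (y (T⁻¹ • (g : lrpdm_X Γ)) - y (g : lrpdm_X Γ))
    rw [← lrpdm_smul_mk S g]
    linear_combination this
  have hηΓ : ∀ (g : SL(2, ℤ)) (γ : Γ), η (g * γ) = η g := fun g γ => by
    show y (T⁻¹ • ((g * γ : SL(2, ℤ)) : lrpdm_X Γ)) - y ((g * γ : SL(2, ℤ)) : lrpdm_X Γ) = _
    rw [lrpdm_mk_mul_mem]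
  obtain ⟨Q, hQneg, hQU, hQS⟩ := lrpt_tree η hη1 hη2
  have hQU' : ∀ g, Q (lrpdm_U * g) = Q g := hQU
  -- the character
  let xf : Γ → k := fun γ => Q γ - Q 1
  have hconst : ∀ (g : SL(2, ℤ)) (γ : Γ), Q (g * γ) - Q g = xf γ := by
    intro g γ
    have := lrpdm_const_of_inv (fun g => Q (g * γ) - Q g) ?_ ?_ g
    · simpa [xf] using this
    · intro g
      show Q (S * g * γ) - Q (S * g) = Q (g * γ) - Q g
      have e1 := hQS (g * γ)
      have e2 := hQS g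
      rw [hηΓ] at e1
      rw [mul_assoc]
      linear_combination e1 - e2
    · intro g
      show Q (lrpdm_U * g * γ) - Q (lrpdm_U * g) = Q (g * γ) - Q g
      rw [mul_assoc, hQU', hQU']
  let x : Additive Γ →+ k :=
    { toFun := fun a => xf (Additive.toMul a)
      map_zero' := by
        show Q ((1 : Γ) : SL(2, ℤ)) - Q 1 = 0
        rw [Subgroup.coe_one, sub_self]
      map_add' := fun a b => by
        show xf (Additive.toMul a * Additive.toMul b) = xf (Additive.toMul a) + xf (Additive.toMul b)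
        have e1 := hconst (Additive.toMul a : Γ) (Additive.toMul b)
        have e2 : xf (Additive.toMul a * Additive.toMul b)
            = Q ((Additive.toMul a : Γ) * (Additive.toMul b : Γ)) - Q 1 := by
          show Q (((Additive.toMul a * Additive.toMul b : Γ)) : SL(2, ℤ)) - Q 1 = _
          rw [Subgroup.coe_mul]
        have e3 : xf (Additive.toMul a) = Q (Additive.toMul a : Γ) - Q 1 := rfl
        rw [e2, e3, ← e1]
        ring }
  have hxev : ∀ γ : Γ, lrpdm_ev Γ x γ = xf γ := fun γ => rfl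
  have hP : lrpdm_IsPrim Γ x Q := fun g γ => by
    rw [hxev, ← hconst g γ]; ring
  let C : SL(2, ℤ) → k := fun g => Q g - y (g : lrpdm_X Γ)
  have hC : lrpdm_IsPrim Γ x C := fun g γ => by
    show Q (g * γ) - y ((g * γ : SL(2, ℤ)) : lrpdm_X Γ) = Q g - y (g : lrpdm_X Γ) + lrpdm_ev Γ x γ
    rw [lrpdm_mk_mul_mem, hP g γ]; ring
  have hCT' : ∀ g, C (T⁻¹ * g) = C g := fun g => by
    show Q (T⁻¹ * g) - y ((T⁻¹ * g : SL(2, ℤ)) : lrpdm_X Γ) = Q g - y (g : lrpdm_X Γ)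
    rw [lrpdm_invU_Tinv Q hQU', ← lrpdm_smul_mk T⁻¹ g]
    have := hQS g
    show Q (S * g) - y (T⁻¹ • (g : lrpdm_X Γ)) = Q g - y (g : lrpdm_X Γ)
    have hη : η g = y (T⁻¹ • (g : lrpdm_X Γ)) - y (g : lrpdm_X Γ) := rfl
    rw [hη] at this
    linear_combination this
  have hCT : ∀ g, C (T * g) = C g := fun g => by
    have := hCT' (T * g); rw [inv_mul_cancel_left] at this; exact this.symm
  refine ⟨x, Q, C, hP, hC, hQU', hCT, lrpdm_kills_S_of_invU h2 Q hP hQU',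
    lrpdm_kills_of_inv lrpdm_U Q hP hQU', lrpdm_kills_of_inv T C hC hCT, ?_⟩
  intro g
  show Q g - (Q g - y (g : lrpdm_X Γ)) = y (g : lrpdm_X Γ)
  ring

variable [Γ.FiniteIndex]

/-- **Non-degeneracy of the model form.** -/
theorem lrpdm_nondeg (hneg : (-1 : SL(2, ℤ)) ∈ Γ) (h2 : (2 : k) ≠ 0) {x : Additive Γ →+ k}
    (P C : SL(2, ℤ) → k) (hP : lrpdm_IsPrim Γ x P) (hC : lrpdm_IsPrim Γ x C)
    (hPU : ∀ g, P (lrpdm_U * g) = P g) (hCT : ∀ g, C (T * g) = C g)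
    (horth : ∀ (x' : Additive Γ →+ k) (P' C' : SL(2, ℤ) → k) (hP' : lrpdm_IsPrim Γ x' P')
      (hC' : lrpdm_IsPrim Γ x' C'), (∀ g, P' (lrpdm_U * g) = P' g) → (∀ g, C' (T * g) = C' g) →
      lrpdm_Kills Γ x' S → lrpdm_Kills Γ x' lrpdm_U → lrpdm_Kills Γ x' T →
      lrpdm_omega (lrpdm_diff P C hP hC) (lrpdm_diff P' C' hP' hC') = 0) :
    x = 0 := by
  have hyY := lrpdm_diff_mem_Y P C hP hC hPU hCT
  obtain ⟨u, v, hu, hv, huv⟩ := lrpdm_radical hneg h2 (lrpdm_diff P C hP hC) hyY (by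
    intro y' hy'
    obtain ⟨x', P', C', hP', hC', hPU', hCT', hS', hU', hT', hy'eq⟩ :=
      lrpdm_exists_char hneg h2 y' hy'
    have := horth x' P' C' hP' hC' hPU' hCT' hS' hU' hT'
    rwa [lrpdm_diff_eq_of P' C' hP' hC' y' hy'eq] at this)
  -- `F := P - u = C + v` is invariant under `U` and `T`
  let F : SL(2, ℤ) → k := fun g => P g - u (g : lrpdm_X Γ)
  have hFC : ∀ g, F g = C g + v (g : lrpdm_X Γ) := fun g => by
    have := congrFun huv (g : lrpdm_X Γ)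
    rw [lrpdm_diff_mk, Pi.add_apply] at this
    show P g - u (g : lrpdm_X Γ) = C g + v (g : lrpdm_X Γ)
    linear_combination this
  have hFU : ∀ g, F (lrpdm_U * g) = F g := fun g => by
    show P (lrpdm_U * g) - u ((lrpdm_U * g : SL(2, ℤ)) : lrpdm_X Γ) = P g - u (g : lrpdm_X Γ)
    rw [hPU, ← lrpdm_smul_mk lrpdm_U g, hu]
  have hFT : ∀ g, F (T * g) = F g := fun g => by
    rw [hFC, hFC, hCT, ← lrpdm_smul_mk T g, hv]
  have hFT' : ∀ g, F (T⁻¹ * g) = F g := fun g => by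
    have := hFT (T⁻¹ * g); rw [mul_inv_cancel_left] at this; exact this.symm
  have hFS : ∀ g, F (S * g) = F g := fun g => by
    rw [← lrpdm_U_mul_Tinv, mul_assoc, hFU, hFT']
  have hFconst := lrpdm_const_of_inv F hFS hFU
  have hFprim : lrpdm_IsPrim Γ x F := fun g γ => by
    show P (g * γ) - u ((g * γ : SL(2, ℤ)) : lrpdm_X Γ) = P g - u (g : lrpdm_X Γ) + lrpdm_ev Γ x γ
    rw [lrpdm_mk_mul_mem, hP]; ring
  refine AddMonoidHom.ext fun a => ?_
  have h1 := hFprim 1 (Additive.toMul a)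
  rw [hFconst (1 * _), hFconst 1] at h1
  have : lrpdm_ev Γ x (Additive.toMul a) = 0 := by
    have := h1; simpa using this.symm
  exact this

end CharY

end Fermat.Agent.LR
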