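/-
LR / [PD], model side, part 5 (prefix `lrpdm_`): the normalised cup-primitive and the orbit formula.

For characters `x, x'` of `Γ` with `U`-invariant primitives `P, P'` ([TREE] = `lrpt_tree` gives `Q`):
* `lrpdm_cup_exists` : `Q` with `Q (-g) = Q g`, `Q (U g) = Q g`,
  `Q (S g) - Q g = ½ (P' g + P' (S g)) (P (S g) - P g)`, and `β : Γ → k` with
  `Q (g γ) = Q g + x' γ * P g + β γ`;
* `β (γ γ') = β γ + β γ' + x γ * x' γ'`, `β = 0` on the `Γ`-elements `g⁻¹ S ^ n g`, `g⁻¹ U ^ n g`;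
* `lrpdm_cup_orbit` : if moreover `C, C'` are `T`-invariant primitives and `h⁻¹ T ^ w h ∈ Γ`, then
  `β (h⁻¹ T ^ w h) = ∑ i < w, f (T ^ i • h Γ)`, where `∑ ξ, f ξ = ω (P - C, P' - C')`;
* `lrpdm_cup_main` : the package.
-/
import Fermat.Agent.LR.PD.Model.Char

set_option autoImplicit false

open scoped MatrixGroups
open ModularGroup

namespace Fermat.Agent.LR

section Cup

theorem lrpdm_S_zpow (n : ℤ) :
    (S : SL(2, ℤ)) ^ n = 1 ∨ (S : SL(2, ℤ)) ^ n = -1 ∨ (S : SL(2, ℤ)) ^ n = S ∨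
      (S : SL(2, ℤ)) ^ n = -S := by
  have hS2 : (S : SL(2, ℤ)) ^ (2 : ℤ) = -1 := by
    rw [show (2 : ℤ) = 1 + 1 from rfl, zpow_add, zpow_one, lrpdm_S_mul_S]
  have hpow : ∀ m : ℤ, ((-1 : SL(2, ℤ)) ^ m = 1 ∨ (-1 : SL(2, ℤ)) ^ m = -1) := fun m => by
    rcases Int.even_or_odd m with hm | hm
    · left; exact hm.neg_one_zpow
    · right; exact hm.neg_one_zpow
  rcases Int.even_or_odd' n with ⟨m, rfl | rfl⟩
  · rw [zpow_mul, hS2]
    rcases hpow m with h | h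
    · left; exact h
    · right; left; exact h
  · rw [zpow_add, zpow_one, zpow_mul, hS2]
    rcases hpow m with h | h
    · right; right; left; rw [h, one_mul]
    · right; right; right; rw [h, neg_mul, one_mul]

variable {k : Type*} [Field k] {Γ : Subgroup SL(2, ℤ)}

/-- the cochain `η₂ g = ½ (P' g + P' (S g)) (P (S g) - P g)` -/
def lrpdm_eta2 (P P' : SL(2, ℤ) → k) (g : SL(2, ℤ)) : k :=
  (2 : k)⁻¹ * (P' g + P' (S * g)) * (P (S * g) - P g)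

/-- the defining properties of `(Q, β)` -/
def lrpdm_IsCupData (x' : Additive Γ →+ k) (P P' Q : SL(2, ℤ) → k) (β : Γ → k) : Prop :=
  (∀ g, Q (-g) = Q g) ∧ (∀ g, Q (lrpdm_U * g) = Q g) ∧
    (∀ g, Q (S * g) - Q g = lrpdm_eta2 P P' g) ∧
    ∀ (g : SL(2, ℤ)) (γ : Γ), Q (g * γ) = Q g + lrpdm_ev Γ x' γ * P g + β γ

/-- **(3b), existence.** -/
theorem lrpdm_cup_exists (h2 : (2 : k) ≠ 0) {x x' : Additive Γ →+ k} (P P' : SL(2, ℤ) → k)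
    (hP : lrpdm_IsPrim Γ x P) (hP' : lrpdm_IsPrim Γ x' P')
    (hPU : ∀ g, P (lrpdm_U * g) = P g) (hPU' : ∀ g, P' (lrpdm_U * g) = P' g) :
    ∃ (Q : SL(2, ℤ) → k) (β : Γ → k), lrpdm_IsCupData x' P P' Q β := by
  have hPn := lrpdm_neg_of_invU P hPU
  have hPn' := lrpdm_neg_of_invU P' hPU'
  have hη1 : ∀ g, lrpdm_eta2 P P' (-g) = lrpdm_eta2 P P' g := fun g => by
    unfold lrpdm_eta2
    rw [mul_neg, hPn, hPn', hPn, hPn']
  have hη2 : ∀ g, lrpdm_eta2 P P' (S * g) = - lrpdm_eta2 P P' g := fun g => by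
    unfold lrpdm_eta2
    rw [← mul_assoc S S g, lrpdm_S_mul_S, neg_mul, one_mul, hPn, hPn']
    ring
  obtain ⟨Q, hQneg, hQU, hQS⟩ := lrpt_tree (lrpdm_eta2 P P') hη1 hη2
  have hQU' : ∀ g, Q (lrpdm_U * g) = Q g := hQU
  have h2' : (2 : k)⁻¹ * 2 = 1 := inv_mul_cancel₀ h2
  have hconst : ∀ (γ : Γ) (g : SL(2, ℤ)),
      Q (g * γ) - Q g - lrpdm_ev Γ x' γ * P g = Q (1 * γ) - Q 1 - lrpdm_ev Γ x' γ * P 1 := by
    intro γ g
    refine lrpdm_const_of_inv (fun g => Q (g * γ) - Q g - lrpdm_ev Γ x' γ * P g) ?_ ?_ g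
    · intro g
      show Q (S * g * γ) - Q (S * g) - lrpdm_ev Γ x' γ * P (S * g)
        = Q (g * γ) - Q g - lrpdm_ev Γ x' γ * P g
      have e1 := hQS (g * γ)
      have e2 := hQS g
      unfold lrpdm_eta2 at e1 e2
      rw [← mul_assoc S g γ, hP, hP', hP', hP] at e1
      linear_combination e1 - e2 +
        (lrpdm_ev Γ x' γ * (P (S * g) - P g)) * h2'
    · intro g
      show Q (lrpdm_U * g * γ) - Q (lrpdm_U * g) - lrpdm_ev Γ x' γ * P (lrpdm_U * g)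
        = Q (g * γ) - Q g - lrpdm_ev Γ x' γ * P g
      rw [mul_assoc, hQU', hQU', hPU]
  refine ⟨Q, fun γ => Q (1 * γ) - Q 1 - lrpdm_ev Γ x' γ * P 1, hQneg, hQU', hQS, ?_⟩
  intro g γ
  have := hconst γ g
  linear_combination this

variable {x x' : Additive Γ →+ k} {P P' Q : SL(2, ℤ) → k} {β : Γ → k}

/-- `β (γ γ') = β γ + β γ' + x γ * x' γ'`. -/
theorem lrpdm_cup_mul (hP : lrpdm_IsPrim Γ x P) (hd : lrpdm_IsCupData x' P P' Q β) (γ γ' : Γ) :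
    β (γ * γ') = β γ + β γ' + lrpdm_ev Γ x γ * lrpdm_ev Γ x' γ' := by
  obtain ⟨-, -, -, hr⟩ := hd
  have e1 := hr (1 * (γ : SL(2, ℤ))) γ'
  have e2 := hr 1 γ
  have e3 := hr 1 (γ * γ')
  have e4 := hP 1 γ
  rw [Subgroup.coe_mul, ← mul_assoc] at e3
  rw [lrpdm_ev_mul] at e3
  rw [e4] at e1
  linear_combination e3.symm + e1 + e2

/-- `β` kills the conjugates of the powers of `U` in `Γ`. -/
theorem lrpdm_cup_kills_U (hP' : lrpdm_IsPrim Γ x' P') (hPU' : ∀ g, P' (lrpdm_U * g) = P' g)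
    (hd : lrpdm_IsCupData x' P P' Q β) (g : SL(2, ℤ)) (n : ℤ)
    (h : g⁻¹ * lrpdm_U ^ n * g ∈ Γ) : β ⟨_, h⟩ = 0 := by
  obtain ⟨-, hQU, -, hr⟩ := hd
  have e1 := hr g ⟨_, h⟩
  have e2 : g * ((⟨_, h⟩ : Γ) : SL(2, ℤ)) = lrpdm_U ^ n * g := by
    show g * (g⁻¹ * lrpdm_U ^ n * g) = lrpdm_U ^ n * g
    group
  rw [e2, lrpdm_inv_zpow Q lrpdm_U hQU, lrpdm_kills_of_inv lrpdm_U P' hP' hPU' g n h] at e1
  linear_combination -e1

/-- `β` kills the conjugates of the powers of `S` in `Γ`. -/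
theorem lrpdm_cup_kills_S (h2 : (2 : k) ≠ 0) (hP : lrpdm_IsPrim Γ x P)
    (hP' : lrpdm_IsPrim Γ x' P') (hPU : ∀ g, P (lrpdm_U * g) = P g)
    (hPU' : ∀ g, P' (lrpdm_U * g) = P' g)
    (hd : lrpdm_IsCupData x' P P' Q β) (g : SL(2, ℤ)) (n : ℤ)
    (h : g⁻¹ * S ^ n * g ∈ Γ) : β ⟨_, h⟩ = 0 := by
  obtain ⟨hQneg, -, hQS, hr⟩ := hd
  have e1 := hr g ⟨_, h⟩
  have e2 : g * ((⟨_, h⟩ : Γ) : SL(2, ℤ)) = S ^ n * g := by
    show g * (g⁻¹ * S ^ n * g) = S ^ n * g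
    group
  have e3 := hP g ⟨_, h⟩
  rw [e2, lrpdm_kills_S_of_invU h2 P' hP' hPU' g n h] at e1
  rw [e2, lrpdm_kills_S_of_invU h2 P hP hPU g n h] at e3
  have hPn := lrpdm_neg_of_invU P hPU
  generalize β ⟨_, h⟩ = b at e1 ⊢
  rcases lrpdm_S_zpow n with hn | hn | hn | hn
  · rw [hn, one_mul] at e1
    linear_combination -e1
  · rw [hn, neg_mul, one_mul, hQneg] at e1
    linear_combination -e1
  · rw [hn] at e1 e3
    have e4 := hQS g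
    unfold lrpdm_eta2 at e4
    rw [e3] at e4
    linear_combination -e1 + e4
  · rw [hn, neg_mul] at e1 e3
    rw [hQneg] at e1
    rw [hPn] at e3
    have e4 := hQS g
    unfold lrpdm_eta2 at e4
    rw [e3] at e4
    linear_combination -e1 + e4

/-- the summand of `ω` -/
def lrpdm_f (y y' : lrpdm_X Γ → k) (ζ : lrpdm_X Γ) : k :=
  (2 : k)⁻¹ * (y (T • ζ) * y' ζ - y ζ * y' (T • ζ))

theorem lrpdm_omega_eq_sum_f [Γ.FiniteIndex] (y y' : lrpdm_X Γ → k) :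
    lrpdm_omega y y' = ∑ ζ, lrpdm_f y y' ζ := by
  unfold lrpdm_omega lrpdm_f
  rw [Finset.mul_sum]

/-- the increment of `Q` along `T` -/
theorem lrpdm_cup_stepT (hPU : ∀ g, P (lrpdm_U * g) = P g)
    (hPU' : ∀ g, P' (lrpdm_U * g) = P' g) (hd : lrpdm_IsCupData x' P P' Q β) (g : SL(2, ℤ)) :
    Q (T * g) - Q g = (2 : k)⁻¹ * (P' (T * g) + P' g) * (P (T * g) - P g) := by
  obtain ⟨-, hQU, hQS, -⟩ := hd
  have e := hQS (T * g)
  unfold lrpdm_eta2 at e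
  have hU : S * (T * g) = lrpdm_U * g := by unfold lrpdm_U; rw [mul_assoc]
  rw [hU, hQU, hPU, hPU'] at e
  linear_combination -e

theorem lrpdm_cup_stepT_pow (hPU : ∀ g, P (lrpdm_U * g) = P g)
    (hPU' : ∀ g, P' (lrpdm_U * g) = P' g) (hd : lrpdm_IsCupData x' P P' Q β) (g : SL(2, ℤ))
    (n : ℕ) :
    Q (T ^ n * g) - Q g = ∑ i ∈ Finset.range n,
      (2 : k)⁻¹ * (P' (T ^ (i + 1) * g) + P' (T ^ i * g)) * (P (T ^ (i + 1) * g) - P (T ^ i * g)) := by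
  induction n with
  | zero => simp
  | succ n ih =>
    rw [Finset.sum_range_succ, ← ih]
    have := lrpdm_cup_stepT hPU hPU' hd (T ^ n * g)
    rw [← mul_assoc, ← pow_succ'] at this
    linear_combination this

/-- **(3c), the orbit formula.** -/
theorem lrpdm_cup_orbit (hP : lrpdm_IsPrim Γ x P) (hP' : lrpdm_IsPrim Γ x' P')
    (hPU : ∀ g, P (lrpdm_U * g) = P g) (hPU' : ∀ g, P' (lrpdm_U * g) = P' g)
    (C C' : SL(2, ℤ) → k) (hC : lrpdm_IsPrim Γ x C) (hC' : lrpdm_IsPrim Γ x' C')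
    (hCT : ∀ g, C (T * g) = C g) (hCT' : ∀ g, C' (T * g) = C' g)
    (hd : lrpdm_IsCupData x' P P' Q β) (h : SL(2, ℤ)) (w : ℕ) (hm : h⁻¹ * T ^ w * h ∈ Γ) :
    β ⟨_, hm⟩ = ∑ i ∈ Finset.range w,
      lrpdm_f (lrpdm_diff P C hP hC) (lrpdm_diff P' C' hP' hC') (T ^ i • (h : lrpdm_X Γ)) := by
  have hr := hd.2.2.2
  have e1 := hr h ⟨_, hm⟩
  have e2 : h * ((⟨_, hm⟩ : Γ) : SL(2, ℤ)) = T ^ w * h := by
    show h * (h⁻¹ * T ^ w * h) = T ^ w * h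
    group
  have hmz : h⁻¹ * T ^ (w : ℤ) * h ∈ Γ := by rw [zpow_natCast]; exact hm
  have hx'0 : lrpdm_ev Γ x' ⟨_, hm⟩ = 0 := by
    have := lrpdm_kills_of_inv T C' hC' hCT' h (w : ℤ) hmz
    convert this using 3
    rw [zpow_natCast]
  rw [e2, hx'0] at e1
  have hβ : β ⟨_, hm⟩ = Q (T ^ w * h) - Q h := by linear_combination -e1
  rw [hβ, lrpdm_cup_stepT_pow hPU hPU' hd h w]
  -- notation
  set y := lrpdm_diff P C hP hC with hy
  set y' := lrpdm_diff P' C' hP' hC' with hy'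
  have hCi : ∀ i : ℕ, C (T ^ i * h) = C h := fun i => by
    have := lrpdm_inv_zpow C T hCT (i : ℤ) h
    rwa [zpow_natCast] at this
  have hCi' : ∀ i : ℕ, C' (T ^ i * h) = C' h := fun i => by
    have := lrpdm_inv_zpow C' T hCT' (i : ℤ) h
    rwa [zpow_natCast] at this
  have hPi : ∀ i : ℕ, P (T ^ i * h) = y (T ^ i • (h : lrpdm_X Γ)) + C h := fun i => by
    rw [lrpdm_smul_mk, hy, lrpdm_diff_mk, hCi]; ring
  have hPi' : ∀ i : ℕ, P' (T ^ i * h) = y' (T ^ i • (h : lrpdm_X Γ)) + C' h := fun i => by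
    rw [lrpdm_smul_mk, hy', lrpdm_diff_mk, hCi']; ring
  have hper : T ^ w • (h : lrpdm_X Γ) = (h : lrpdm_X Γ) := by
    rw [lrpdm_smul_mk, ← e2, lrpdm_mk_mul_mem]
  -- telescoping sums
  have htel1 : ∑ i ∈ Finset.range w,
      (y (T ^ (i + 1) • (h : lrpdm_X Γ)) - y (T ^ i • (h : lrpdm_X Γ))) = 0 := by
    rw [Finset.sum_range_sub (fun i => y (T ^ i • (h : lrpdm_X Γ))) w, hper, pow_zero, one_smul,
      sub_self]
  have htel2 : ∑ i ∈ Finset.range w,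
      (y' (T ^ (i + 1) • (h : lrpdm_X Γ)) * y (T ^ (i + 1) • (h : lrpdm_X Γ))
        - y' (T ^ i • (h : lrpdm_X Γ)) * y (T ^ i • (h : lrpdm_X Γ))) = 0 := by
    rw [Finset.sum_range_sub
      (fun i => y' (T ^ i • (h : lrpdm_X Γ)) * y (T ^ i • (h : lrpdm_X Γ))) w, hper, pow_zero,
      one_smul, sub_self]
  have hsplit : ∀ i ∈ Finset.range w,
      (2 : k)⁻¹ * (P' (T ^ (i + 1) * h) + P' (T ^ i * h)) * (P (T ^ (i + 1) * h) - P (T ^ i * h))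
      = lrpdm_f y y' (T ^ i • (h : lrpdm_X Γ))
        + ((2 : k)⁻¹ * (y' (T ^ (i + 1) • (h : lrpdm_X Γ)) * y (T ^ (i + 1) • (h : lrpdm_X Γ))
            - y' (T ^ i • (h : lrpdm_X Γ)) * y (T ^ i • (h : lrpdm_X Γ)))
          + ((2 : k)⁻¹ * (2 * C' h)) *
            (y (T ^ (i + 1) • (h : lrpdm_X Γ)) - y (T ^ i • (h : lrpdm_X Γ)))) := by
    intro i _
    have hsm : T • T ^ i • (h : lrpdm_X Γ) = T ^ (i + 1) • (h : lrpdm_X Γ) := by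
      rw [← mul_smul, ← pow_succ']
    unfold lrpdm_f
    rw [hPi, hPi, hPi', hPi', hsm]
    ring
  rw [Finset.sum_congr rfl hsplit, Finset.sum_add_distrib, Finset.sum_add_distrib,
    ← Finset.mul_sum, ← Finset.mul_sum, htel1, htel2]
  ring

/-- **(3b) + (3c), the package.** -/
theorem lrpdm_cup_main (h2 : (2 : k) ≠ 0) {x x' : Additive Γ →+ k} (P C P' C' : SL(2, ℤ) → k)
    (hP : lrpdm_IsPrim Γ x P) (hC : lrpdm_IsPrim Γ x C) (hP' : lrpdm_IsPrim Γ x' P')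
    (hC' : lrpdm_IsPrim Γ x' C') (hPU : ∀ g, P (lrpdm_U * g) = P g)
    (hCT : ∀ g, C (T * g) = C g) (hPU' : ∀ g, P' (lrpdm_U * g) = P' g)
    (hCT' : ∀ g, C' (T * g) = C' g) :
    ∃ β : Γ → k,
      (∀ γ γ' : Γ, β (γ * γ') = β γ + β γ' + lrpdm_ev Γ x γ * lrpdm_ev Γ x' γ') ∧
      (∀ (g : SL(2, ℤ)) (n : ℤ) (h : g⁻¹ * S ^ n * g ∈ Γ), β ⟨_, h⟩ = 0) ∧
      (∀ (g : SL(2, ℤ)) (n : ℤ) (h : g⁻¹ * lrpdm_U ^ n * g ∈ Γ), β ⟨_, h⟩ = 0) ∧
      ∀ (h : SL(2, ℤ)) (w : ℕ) (hm : h⁻¹ * T ^ w * h ∈ Γ),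
        β ⟨_, hm⟩ = ∑ i ∈ Finset.range w,
          lrpdm_f (lrpdm_diff P C hP hC) (lrpdm_diff P' C' hP' hC') (T ^ i • (h : lrpdm_X Γ)) := by
  obtain ⟨Q, β, hd⟩ := lrpdm_cup_exists h2 P P' hP hP' hPU hPU'
  exact ⟨β, lrpdm_cup_mul hP hd, lrpdm_cup_kills_S h2 hP hP' hPU hPU' hd,
    lrpdm_cup_kills_U hP' hPU' hd,
    lrpdm_cup_orbit hP hP' hPU hPU' C C' hC hC' hCT hCT' hd⟩

end Cup

end Fermat.Agent.LR
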