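/-
LR / [PD], model side, part 6 (prefix `lrpdm_`): the pairing `lrpdm_Om Γ x x'` on the characters of
`Γ ≤ SL(2, ℤ)` killing the `Γ`-conjugates of the powers of `S`, `U = S T`, `T`.

* `lrpdm_PE Γ x` : the condition on `x`;
* `lrpdm_Om Γ x x'` : `ω (P - C, P' - C')` for chosen invariant primitives;
* `lrpdm_Om_eq` : independence of all choices;
* `lrpdm_Om_add_left/right`, `lrpdm_Om_skew`, `lrpdm_Om_nondeg`;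
* `lrpdm_Om_cusp` : `lrpdm_Om Γ x x' = ∑ O, β (π_O)` for EVERY cup-primitive `β` of `(x, x')` killing
  the conjugates of the powers of `S` and `U` (orbit formula + residue theorem).
-/
import Fermat.Agent.LR.PD.Model.Cup
import Fermat.Agent.LR.PD.Cusp
import Fermat.Agent.LR.PD.Residue

set_option autoImplicit false

open scoped MatrixGroups
open ModularGroup

namespace Fermat.Agent.LR

section Omega

variable {k : Type*} [Field k] (Γ : Subgroup SL(2, ℤ))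

/-- `x` kills the `Γ`-conjugates of the powers of `S`, `U`, `T`. -/
def lrpdm_PE (x : Additive Γ →+ k) : Prop :=
  lrpdm_Kills Γ x S ∧ lrpdm_Kills Γ x lrpdm_U ∧ lrpdm_Kills Γ x T

variable {Γ}

theorem lrpdm_ev_add (x x' : Additive Γ →+ k) (γ : Γ) :
    lrpdm_ev Γ (x + x') γ = lrpdm_ev Γ x γ + lrpdm_ev Γ x' γ := rfl

theorem lrpdm_ev_neg (x : Additive Γ →+ k) (γ : Γ) :
    lrpdm_ev Γ (-x) γ = - lrpdm_ev Γ x γ := rfl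

theorem lrpdm_ev_zero (γ : Γ) : lrpdm_ev Γ (0 : Additive Γ →+ k) γ = 0 := rfl

theorem lrpdm_Kills.add {x x' : Additive Γ →+ k} {σ : SL(2, ℤ)} (h : lrpdm_Kills Γ x σ)
    (h' : lrpdm_Kills Γ x' σ) : lrpdm_Kills Γ (x + x') σ := fun g n hm => by
  rw [lrpdm_ev_add, h g n hm, h' g n hm, add_zero]

theorem lrpdm_Kills.neg {x : Additive Γ →+ k} {σ : SL(2, ℤ)} (h : lrpdm_Kills Γ x σ) :
    lrpdm_Kills Γ (-x) σ := fun g n hm => by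
  rw [lrpdm_ev_neg, h g n hm, neg_zero]

theorem lrpdm_PE.add {x x' : Additive Γ →+ k} (h : lrpdm_PE Γ x) (h' : lrpdm_PE Γ x') :
    lrpdm_PE Γ (x + x') :=
  ⟨h.1.add h'.1, h.2.1.add h'.2.1, h.2.2.add h'.2.2⟩

theorem lrpdm_PE.neg {x : Additive Γ →+ k} (h : lrpdm_PE Γ x) : lrpdm_PE Γ (-x) :=
  ⟨h.1.neg, h.2.1.neg, h.2.2.neg⟩

theorem lrpdm_PE_zero : lrpdm_PE Γ (0 : Additive Γ →+ k) :=
  ⟨fun _ _ _ => rfl, fun _ _ _ => rfl, fun _ _ _ => rfl⟩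

/-- the function `P - C` on `X` attached to `x`, for some choice of invariant primitives -/
theorem lrpdm_exists_y {x : Additive Γ →+ k} (hx : lrpdm_PE Γ x) :
    ∃ y : lrpdm_X Γ → k, ∃ (P C : SL(2, ℤ) → k) (hP : lrpdm_IsPrim Γ x P)
      (hC : lrpdm_IsPrim Γ x C), (∀ g, P (lrpdm_U * g) = P g) ∧ (∀ g, C (T * g) = C g) ∧
      y = lrpdm_diff P C hP hC := by
  obtain ⟨P, hP, hPU⟩ := lrpdm_exists_prim_inv x lrpdm_U hx.2.1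
  obtain ⟨C, hC, hCT⟩ := lrpdm_exists_prim_inv x T hx.2.2
  exact ⟨_, P, C, hP, hC, hPU, hCT, rfl⟩

/-- a chosen `P - C` -/
noncomputable def lrpdm_yOf (x : Additive Γ →+ k) (hx : lrpdm_PE Γ x) : lrpdm_X Γ → k :=
  Classical.choose (lrpdm_exists_y hx)

theorem lrpdm_yOf_spec (x : Additive Γ →+ k) (hx : lrpdm_PE Γ x) :
    ∃ (P C : SL(2, ℤ) → k) (hP : lrpdm_IsPrim Γ x P)
      (hC : lrpdm_IsPrim Γ x C), (∀ g, P (lrpdm_U * g) = P g) ∧ (∀ g, C (T * g) = C g) ∧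
      lrpdm_yOf x hx = lrpdm_diff P C hP hC :=
  Classical.choose_spec (lrpdm_exists_y hx)

theorem lrpdm_diff_inv {x : Additive Γ →+ k} (F F' : SL(2, ℤ) → k) (hF : lrpdm_IsPrim Γ x F)
    (hF' : lrpdm_IsPrim Γ x F') (σ : SL(2, ℤ)) (hσ : ∀ g, F (σ * g) = F g)
    (hσ' : ∀ g, F' (σ * g) = F' g) (ξ : lrpdm_X Γ) :
    lrpdm_diff F F' hF hF' (σ • ξ) = lrpdm_diff F F' hF hF' ξ := by
  induction ξ using QuotientGroup.induction_on with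
  | H g => rw [lrpdm_smul_mk, lrpdm_diff_mk, lrpdm_diff_mk, hσ, hσ']

theorem lrpdm_diff_sub_diff {x : Additive Γ →+ k} (P₁ C₁ P₂ C₂ : SL(2, ℤ) → k)
    (hP₁ : lrpdm_IsPrim Γ x P₁) (hC₁ : lrpdm_IsPrim Γ x C₁) (hP₂ : lrpdm_IsPrim Γ x P₂)
    (hC₂ : lrpdm_IsPrim Γ x C₂) :
    lrpdm_diff P₁ C₁ hP₁ hC₁
      = lrpdm_diff P₂ C₂ hP₂ hC₂ + (lrpdm_diff P₁ P₂ hP₁ hP₂ - lrpdm_diff C₁ C₂ hC₁ hC₂) := by
  funext ξ
  induction ξ using QuotientGroup.induction_on with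
  | H g =>
    simp only [Pi.add_apply, Pi.sub_apply, lrpdm_diff_mk]
    ring

variable [Γ.FiniteIndex]

/-- independence of the choice of `(P, C)` in the first slot -/
theorem lrpdm_omega_indep_left {x x' : Additive Γ →+ k} (hx'S : lrpdm_Kills Γ x' S)
    (P₁ C₁ P₂ C₂ P' C' : SL(2, ℤ) → k)
    (hP₁ : lrpdm_IsPrim Γ x P₁) (hC₁ : lrpdm_IsPrim Γ x C₁) (hP₂ : lrpdm_IsPrim Γ x P₂)
    (hC₂ : lrpdm_IsPrim Γ x C₂) (hP' : lrpdm_IsPrim Γ x' P') (hC' : lrpdm_IsPrim Γ x' C')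
    (hPU₁ : ∀ g, P₁ (lrpdm_U * g) = P₁ g) (hCT₁ : ∀ g, C₁ (T * g) = C₁ g)
    (hPU₂ : ∀ g, P₂ (lrpdm_U * g) = P₂ g) (hCT₂ : ∀ g, C₂ (T * g) = C₂ g)
    (hPU' : ∀ g, P' (lrpdm_U * g) = P' g) (hCT' : ∀ g, C' (T * g) = C' g) :
    lrpdm_omega (lrpdm_diff P₁ C₁ hP₁ hC₁) (lrpdm_diff P' C' hP' hC')
      = lrpdm_omega (lrpdm_diff P₂ C₂ hP₂ hC₂) (lrpdm_diff P' C' hP' hC') := by
  obtain ⟨E', hE', hES'⟩ := lrpdm_exists_prim_inv x' S hx'S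
  rw [lrpdm_diff_sub_diff P₁ C₁ P₂ C₂ hP₁ hC₁ hP₂ hC₂, lrpdm_omega_add_left,
    lrpdm_omega_sub_left,
    lrpdm_omega_invU_left (lrpdm_diff P₁ P₂ hP₁ hP₂)
      (lrpdm_diff_inv P₁ P₂ hP₁ hP₂ lrpdm_U hPU₁ hPU₂) P' C' E' hP' hC' hE' hPU' hCT' hES',
    lrpdm_omega_invT_left (lrpdm_diff C₁ C₂ hC₁ hC₂) _
      (lrpdm_diff_inv C₁ C₂ hC₁ hC₂ T hCT₁ hCT₂)]
  ring

/-- the pairing -/
noncomputable def lrpdm_Om (x x' : Additive Γ →+ k) : k := by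
  classical
  exact if h : lrpdm_PE Γ x ∧ lrpdm_PE Γ x' then
    lrpdm_omega (lrpdm_yOf x h.1) (lrpdm_yOf x' h.2) else 0

/-- **(M1)** independence of all choices -/
theorem lrpdm_Om_eq {x x' : Additive Γ →+ k} (hx : lrpdm_PE Γ x) (hx' : lrpdm_PE Γ x')
    (P C P' C' : SL(2, ℤ) → k)
    (hP : lrpdm_IsPrim Γ x P) (hC : lrpdm_IsPrim Γ x C) (hP' : lrpdm_IsPrim Γ x' P')
    (hC' : lrpdm_IsPrim Γ x' C') (hPU : ∀ g, P (lrpdm_U * g) = P g)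
    (hCT : ∀ g, C (T * g) = C g) (hPU' : ∀ g, P' (lrpdm_U * g) = P' g)
    (hCT' : ∀ g, C' (T * g) = C' g) :
    lrpdm_Om x x' = lrpdm_omega (lrpdm_diff P C hP hC) (lrpdm_diff P' C' hP' hC') := by
  unfold lrpdm_Om
  rw [dif_pos ⟨hx, hx'⟩]
  obtain ⟨P₀, C₀, hP₀, hC₀, hPU₀, hCT₀, e₀⟩ := lrpdm_yOf_spec x hx
  obtain ⟨P₀', C₀', hP₀', hC₀', hPU₀', hCT₀', e₀'⟩ := lrpdm_yOf_spec x' hx'
  rw [e₀, e₀',
    lrpdm_omega_indep_left hx'.1 P₀ C₀ P C P₀' C₀' hP₀ hC₀ hP hC hP₀' hC₀' hPU₀ hCT₀ hPU hCT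
      hPU₀' hCT₀',
    lrpdm_omega_antisymm (lrpdm_diff P₀' C₀' hP₀' hC₀') (lrpdm_diff P C hP hC),
    lrpdm_omega_indep_left hx.1 P₀' C₀' P' C' P C hP₀' hC₀' hP' hC' hP hC hPU₀' hCT₀' hPU' hCT'
      hPU hCT,
    ← lrpdm_omega_antisymm]

theorem lrpdm_Om_of_not {x x' : Additive Γ →+ k} (h : ¬ (lrpdm_PE Γ x ∧ lrpdm_PE Γ x')) :
    lrpdm_Om x x' = 0 := by
  unfold lrpdm_Om
  rw [dif_neg h]

/-- **(M3)** -/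
theorem lrpdm_Om_skew (x x' : Additive Γ →+ k) : lrpdm_Om x x' = - lrpdm_Om x' x := by
  by_cases h : lrpdm_PE Γ x ∧ lrpdm_PE Γ x'
  · obtain ⟨P, C, hP, hC, hPU, hCT, -⟩ := lrpdm_yOf_spec x h.1
    obtain ⟨P', C', hP', hC', hPU', hCT', -⟩ := lrpdm_yOf_spec x' h.2
    rw [lrpdm_Om_eq h.1 h.2 P C P' C' hP hC hP' hC' hPU hCT hPU' hCT',
      lrpdm_Om_eq h.2 h.1 P' C' P C hP' hC' hP hC hPU' hCT' hPU hCT, ← lrpdm_omega_antisymm]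
  · rw [lrpdm_Om_of_not h, lrpdm_Om_of_not (fun h' => h ⟨h'.2, h'.1⟩), neg_zero]

/-- **(M2)** -/
theorem lrpdm_Om_add_left {x₁ x₂ x' : Additive Γ →+ k} (h₁ : lrpdm_PE Γ x₁)
    (h₂ : lrpdm_PE Γ x₂) (h' : lrpdm_PE Γ x') :
    lrpdm_Om (x₁ + x₂) x' = lrpdm_Om x₁ x' + lrpdm_Om x₂ x' := by
  obtain ⟨P₁, C₁, hP₁, hC₁, hPU₁, hCT₁, -⟩ := lrpdm_yOf_spec x₁ h₁
  obtain ⟨P₂, C₂, hP₂, hC₂, hPU₂, hCT₂, -⟩ := lrpdm_yOf_spec x₂ h₂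
  obtain ⟨P', C', hP', hC', hPU', hCT', -⟩ := lrpdm_yOf_spec x' h'
  have hP : lrpdm_IsPrim Γ (x₁ + x₂) (fun g => P₁ g + P₂ g) := fun g γ => by
    show P₁ (g * γ) + P₂ (g * γ) = P₁ g + P₂ g + lrpdm_ev Γ (x₁ + x₂) γ
    rw [hP₁, hP₂, lrpdm_ev_add]; ring
  have hC : lrpdm_IsPrim Γ (x₁ + x₂) (fun g => C₁ g + C₂ g) := fun g γ => by
    show C₁ (g * γ) + C₂ (g * γ) = C₁ g + C₂ g + lrpdm_ev Γ (x₁ + x₂) γ
    rw [hC₁, hC₂, lrpdm_ev_add]; ring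
  have hPU : ∀ g, (fun g => P₁ g + P₂ g) (lrpdm_U * g) = (fun g => P₁ g + P₂ g) g := fun g => by
    show P₁ (lrpdm_U * g) + P₂ (lrpdm_U * g) = P₁ g + P₂ g
    rw [hPU₁, hPU₂]
  have hCT : ∀ g, (fun g => C₁ g + C₂ g) (T * g) = (fun g => C₁ g + C₂ g) g := fun g => by
    show C₁ (T * g) + C₂ (T * g) = C₁ g + C₂ g
    rw [hCT₁, hCT₂]
  have hsum : lrpdm_diff (fun g => P₁ g + P₂ g) (fun g => C₁ g + C₂ g) hP hC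
      = lrpdm_diff P₁ C₁ hP₁ hC₁ + lrpdm_diff P₂ C₂ hP₂ hC₂ := by
    funext ξ
    induction ξ using QuotientGroup.induction_on with
    | H g =>
      simp only [Pi.add_apply, lrpdm_diff_mk]
      ring
  rw [lrpdm_Om_eq (h₁.add h₂) h' _ _ P' C' hP hC hP' hC' hPU hCT hPU' hCT', hsum,
    lrpdm_omega_add_left,
    lrpdm_Om_eq h₁ h' P₁ C₁ P' C' hP₁ hC₁ hP' hC' hPU₁ hCT₁ hPU' hCT',
    lrpdm_Om_eq h₂ h' P₂ C₂ P' C' hP₂ hC₂ hP' hC' hPU₂ hCT₂ hPU' hCT']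

theorem lrpdm_Om_add_right {x x₁' x₂' : Additive Γ →+ k} (h : lrpdm_PE Γ x)
    (h₁ : lrpdm_PE Γ x₁') (h₂ : lrpdm_PE Γ x₂') :
    lrpdm_Om x (x₁' + x₂') = lrpdm_Om x x₁' + lrpdm_Om x x₂' := by
  rw [lrpdm_Om_skew, lrpdm_Om_add_left h₁ h₂ h, lrpdm_Om_skew x₁' x, lrpdm_Om_skew x₂' x]
  ring

/-- **(M4)** -/
theorem lrpdm_Om_nondeg (hneg : (-1 : SL(2, ℤ)) ∈ Γ) (h2 : (2 : k) ≠ 0) {x : Additive Γ →+ k}
    (hx : lrpdm_PE Γ x) (h : ∀ x' : Additive Γ →+ k, lrpdm_PE Γ x' → lrpdm_Om x x' = 0) :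
    x = 0 := by
  obtain ⟨P, C, hP, hC, hPU, hCT, -⟩ := lrpdm_yOf_spec x hx
  refine lrpdm_nondeg hneg h2 P C hP hC hPU hCT ?_
  intro x' P' C' hP' hC' hPU' hCT' hS' hU' hT'
  rw [← lrpdm_Om_eq hx ⟨hS', hU', hT'⟩ P C P' C' hP hC hP' hC' hPU hCT hPU' hCT']
  exact h x' ⟨hS', hU', hT'⟩

/-- **(M5)** the cusp formula, for every normalised cup-primitive. -/
theorem lrpdm_Om_cusp (h2 : (2 : k) ≠ 0) {x x' : Additive Γ →+ k} (hx : lrpdm_PE Γ x)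
    (hx' : lrpdm_PE Γ x') (β : Γ → k)
    (hβ : ∀ γ γ' : Γ, β (γ * γ') = β γ + β γ' + lrpdm_ev Γ x γ * lrpdm_ev Γ x' γ')
    (hβS : ∀ (g : SL(2, ℤ)) (n : ℕ) (h : g⁻¹ * S ^ n * g ∈ Γ), β ⟨_, h⟩ = 0)
    (hβU : ∀ (g : SL(2, ℤ)) (n : ℕ) (h : g⁻¹ * (S * T) ^ n * g ∈ Γ), β ⟨_, h⟩ = 0)
    [Fintype (lrpc_Orb Γ)] (rep : lrpc_Orb Γ → SL(2, ℤ))
    (hrep : ∀ O, (Quotient.mk'' ((rep O : SL(2, ℤ)) : SL(2, ℤ) ⧸ Γ) : lrpc_Orb Γ) = O) :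
    ∑ O, β ⟨lrpc_genAt Γ (rep O), lrpc_genAt_mem Γ (rep O)⟩ = lrpdm_Om x x' := by
  obtain ⟨P, C, hP, hC, hPU, hCT, -⟩ := lrpdm_yOf_spec x hx
  obtain ⟨P', C', hP', hC', hPU', hCT', -⟩ := lrpdm_yOf_spec x' hx'
  obtain ⟨β₀, hβ₀, hβ₀S, hβ₀U, horb⟩ :=
    lrpdm_cup_main h2 P C P' C' hP hC hP' hC' hPU hCT hPU' hCT'
  -- the difference is a character killing the `S`- and `U`-conjugates
  have hres := lrpr_residue_fun Γ (fun γ => β γ - β₀ γ)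
    (fun a b => by
      show β (a * b) - β₀ (a * b) = (β a - β₀ a) + (β b - β₀ b)
      rw [hβ, hβ₀]; ring)
    (fun g n hm => by
      have hm' : g⁻¹ * S ^ (n : ℤ) * g ∈ Γ := by rw [zpow_natCast]; exact hm
      have e := hβ₀S g (n : ℤ) hm'
      have e' : β₀ ⟨g⁻¹ * S ^ n * g, hm⟩ = 0 := by
        convert e using 3
        rw [zpow_natCast]
      show β ⟨_, hm⟩ - β₀ ⟨_, hm⟩ = 0
      rw [hβS g n hm, e', sub_zero])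
    (fun g n hm => by
      have hm' : g⁻¹ * lrpdm_U ^ (n : ℤ) * g ∈ Γ := by rw [zpow_natCast]; exact hm
      have e := hβ₀U g (n : ℤ) hm'
      have e' : β₀ ⟨g⁻¹ * (S * T) ^ n * g, hm⟩ = 0 := by
        convert e using 3
        rw [zpow_natCast]
      show β ⟨_, hm⟩ - β₀ ⟨_, hm⟩ = 0
      rw [hβU g n hm, e', sub_zero])
    rep hrep
  have hres' : ∑ O, (β ⟨lrpc_genAt Γ (rep O), lrpc_genAt_mem Γ (rep O)⟩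
      - β₀ ⟨lrpc_genAt Γ (rep O), lrpc_genAt_mem Γ (rep O)⟩) = 0 := hres
  rw [Finset.sum_sub_distrib, sub_eq_zero] at hres'
  rw [hres', lrpdm_Om_eq hx hx' P C P' C' hP hC hP' hC' hPU hCT hPU' hCT',
    lrpdm_omega_eq_sum_f,
    lrpc_sum_orbits_of_rep Γ rep hrep
      (lrpdm_f (lrpdm_diff P C hP hC) (lrpdm_diff P' C' hP' hC'))]
  refine Finset.sum_congr rfl (fun O _ => ?_)
  exact horb (rep O) (lrpc_widthAt Γ (rep O)) (lrpc_genAt_mem Γ (rep O))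

omit [Γ.FiniteIndex] in
/-- existence of a normalised cup-primitive -/
theorem lrpdm_exists_cup (h2 : (2 : k) ≠ 0) {x x' : Additive Γ →+ k} (hx : lrpdm_PE Γ x)
    (hx' : lrpdm_PE Γ x') :
    ∃ β : Γ → k,
      (∀ γ γ' : Γ, β (γ * γ') = β γ + β γ' + lrpdm_ev Γ x γ * lrpdm_ev Γ x' γ') ∧
      (∀ (g : SL(2, ℤ)) (n : ℤ) (h : g⁻¹ * S ^ n * g ∈ Γ), β ⟨_, h⟩ = 0) ∧
      (∀ (g : SL(2, ℤ)) (n : ℤ) (h : g⁻¹ * lrpdm_U ^ n * g ∈ Γ), β ⟨_, h⟩ = 0) := by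
  obtain ⟨P, C, hP, hC, hPU, hCT, -⟩ := lrpdm_yOf_spec x hx
  obtain ⟨P', C', hP', hC', hPU', hCT', -⟩ := lrpdm_yOf_spec x' hx'
  obtain ⟨β₀, hβ₀, hβ₀S, hβ₀U, -⟩ :=
    lrpdm_cup_main h2 P C P' C' hP hC hP' hC' hPU hCT hPU' hCT'
  exact ⟨β₀, hβ₀, hβ₀S, hβ₀U⟩

end Omega

end Fermat.Agent.LR
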