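/-
LR / [PD], model side, part 7 (prefix `lrpdm_`): restriction is adjoint to corestriction.

`Γ' ≤ Γ ≤ SL(2, ℤ)`, `ρ : ι → SL(2, ℤ)` a system of representatives of `Γ ⧸ Γ'` (`Γ = ⊔ ρ i Γ'`),
`x` a character of `Γ` with restriction `xr`, `z` a character of `Γ'` with transfer `zt`
(`zt γ = ∑ i, z ((ρ (σ i))⁻¹ γ ρ i)`).  Then `lrpdm_Om xr z = lrpdm_Om x zt`.
-/
import Fermat.Agent.LR.PD.Model.Omega
import Fermat.Agent.LR.PD.Fib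

set_option autoImplicit false

open scoped MatrixGroups
open ModularGroup

namespace Fermat.Agent.LR

section Cores

variable {k : Type*} [Field k] {Γ Γ' : Subgroup SL(2, ℤ)} {ι : Type*} [Fintype ι]

/-- the sum of a function over the translates by the representatives -/
def lrpdm_tr (ρ : ι → SL(2, ℤ)) (F : SL(2, ℤ) → k) (g : SL(2, ℤ)) : k := ∑ i, F (g * ρ i)

theorem lrpdm_tr_inv (ρ : ι → SL(2, ℤ)) (F : SL(2, ℤ) → k) (σ : SL(2, ℤ))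
    (hF : ∀ g, F (σ * g) = F g) (g : SL(2, ℤ)) : lrpdm_tr ρ F (σ * g) = lrpdm_tr ρ F g := by
  unfold lrpdm_tr
  refine Finset.sum_congr rfl (fun i _ => ?_)
  rw [mul_assoc, hF]

/-- the index map attached to `γ` is injective, hence bijective -/
theorem lrpdm_sigma_bij (ρ : ι → SL(2, ℤ)) (hρ : ∀ i, ρ i ∈ Γ)
    (hbij : ∀ γ ∈ Γ, ∃! i, (ρ i)⁻¹ * γ ∈ Γ') (γ : SL(2, ℤ)) (σ : ι → ι)
    (hm : ∀ i, (ρ (σ i))⁻¹ * γ * ρ i ∈ Γ') : Function.Bijective σ := by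
  have hinj : Function.Injective σ := by
    intro i i' h
    have h1 := hm i
    have h2 := hm i'
    rw [← h] at h2
    have h3 : (ρ i)⁻¹ * ρ i' ∈ Γ' := by
      have e : (ρ i)⁻¹ * ρ i' = ((ρ (σ i))⁻¹ * γ * ρ i)⁻¹ * ((ρ (σ i))⁻¹ * γ * ρ i') := by group
      rw [e]
      exact Γ'.mul_mem (Γ'.inv_mem h1) h2
    obtain ⟨j, _, hj⟩ := hbij (ρ i') (hρ i')
    have e1 : i = j := hj i h3
    have e2 : i' = j := hj i' (by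
      show (ρ i')⁻¹ * ρ i' ∈ Γ'
      rw [inv_mul_cancel]; exact Γ'.one_mem)
    rw [e1, e2]
  exact Finite.injective_iff_bijective.mp hinj

/-- the translate-sum of a primitive of `z` is a primitive of the transfer `zt` -/
theorem lrpdm_tr_isPrim (ρ : ι → SL(2, ℤ)) (hρ : ∀ i, ρ i ∈ Γ)
    (hbij : ∀ γ ∈ Γ, ∃! i, (ρ i)⁻¹ * γ ∈ Γ') (zt : Additive Γ →+ k) (z : Additive Γ' →+ k)
    (hzt : ∀ γ : Γ, ∃ (σ : ι → ι) (hm : ∀ i, (ρ (σ i))⁻¹ * γ * ρ i ∈ Γ'),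
      lrpdm_ev Γ zt γ = ∑ i, lrpdm_ev Γ' z ⟨_, hm i⟩)
    (F : SL(2, ℤ) → k) (hF : lrpdm_IsPrim Γ' z F) : lrpdm_IsPrim Γ zt (lrpdm_tr ρ F) := by
  intro g γ
  obtain ⟨σ, hm, hev⟩ := hzt γ
  have hσ := lrpdm_sigma_bij ρ hρ hbij (γ : SL(2, ℤ)) σ hm
  unfold lrpdm_tr
  rw [hev, ← (Equiv.ofBijective σ hσ).sum_comp (fun i => F (g * ρ i)), ← Finset.sum_add_distrib]
  refine Finset.sum_congr rfl (fun i _ => ?_)
  have e : g * γ * ρ i = g * ρ (σ i) * ((⟨_, hm i⟩ : Γ') : SL(2, ℤ)) := by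
    show g * γ * ρ i = g * ρ (σ i) * ((ρ (σ i))⁻¹ * γ * ρ i)
    group
  rw [e, hF]
  rfl

variable [Γ.FiniteIndex] [Γ'.FiniteIndex]

/-- **res ⊣ cores in the model.** -/
theorem lrpdm_Om_cores (hle : Γ' ≤ Γ) (ρ : ι → SL(2, ℤ)) (hρ : ∀ i, ρ i ∈ Γ)
    (hbij : ∀ γ ∈ Γ, ∃! i, (ρ i)⁻¹ * γ ∈ Γ')
    (x zt : Additive Γ →+ k) (xr z : Additive Γ' →+ k) (hx : lrpdm_PE Γ x) (hz : lrpdm_PE Γ' z)
    (hxr : ∀ γ' : Γ', lrpdm_ev Γ' xr γ' = lrpdm_ev Γ x ⟨γ', hle γ'.2⟩)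
    (hzt : ∀ γ : Γ, ∃ (σ : ι → ι) (hm : ∀ i, (ρ (σ i))⁻¹ * γ * ρ i ∈ Γ'),
      lrpdm_ev Γ zt γ = ∑ i, lrpdm_ev Γ' z ⟨_, hm i⟩) :
    lrpdm_Om xr z = lrpdm_Om x zt := by
  -- primitives
  obtain ⟨P, C, hP, hC, hPU, hCT, -⟩ := lrpdm_yOf_spec x hx
  obtain ⟨P', C', hP', hC', hPU', hCT', -⟩ := lrpdm_yOf_spec z hz
  obtain ⟨E', hE', hES'⟩ := lrpdm_exists_prim_inv z S hz.1
  have hPr : lrpdm_IsPrim Γ' xr P := fun g γ' => by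
    rw [hxr]; exact hP g ⟨γ', hle γ'.2⟩
  have hCr : lrpdm_IsPrim Γ' xr C := fun g γ' => by
    rw [hxr]; exact hC g ⟨γ', hle γ'.2⟩
  have hPt := lrpdm_tr_isPrim ρ hρ hbij zt z hzt P' hP'
  have hCt := lrpdm_tr_isPrim ρ hρ hbij zt z hzt C' hC'
  have hEt := lrpdm_tr_isPrim ρ hρ hbij zt z hzt E' hE'
  have hPtU := lrpdm_tr_inv ρ P' lrpdm_U hPU'
  have hCtT := lrpdm_tr_inv ρ C' T hCT'
  have hEtS := lrpdm_tr_inv ρ E' S hES'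
  obtain ⟨E, hE, hES⟩ := lrpdm_exists_prim_inv x S hx.1
  have hEr : lrpdm_IsPrim Γ' xr E := fun g γ' => by
    rw [hxr]; exact hE g ⟨γ', hle γ'.2⟩
  have hxrPE : lrpdm_PE Γ' xr :=
    ⟨lrpdm_kills_of_inv S E hEr hES, lrpdm_kills_of_inv lrpdm_U P hPr hPU,
      lrpdm_kills_of_inv T C hCr hCT⟩
  have hztPE : lrpdm_PE Γ zt :=
    ⟨lrpdm_kills_of_inv S _ hEt hEtS, lrpdm_kills_of_inv lrpdm_U _ hPt hPtU,
      lrpdm_kills_of_inv T _ hCt hCtT⟩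
  rw [lrpdm_Om_eq hxrPE hz P C P' C' hPr hCr hP' hC' hPU hCT hPU' hCT',
    lrpdm_Om_eq hx hztPE P C _ _ hP hC hPt hCt hPU hCT hPtU hCtT]
  unfold lrpdm_omega
  congr 1
  rw [lrpd_sum_fib hle ρ hρ hbij]
  refine Finset.sum_congr rfl (fun ξ _ => ?_)
  -- the fibre over `ξ`
  have hout : ((Quotient.out ξ : SL(2, ℤ)) : lrpdm_X Γ) = ξ := QuotientGroup.out_eq' ξ
  have hy : ∀ g : SL(2, ℤ), lrpdm_diff (lrpdm_tr ρ P') (lrpdm_tr ρ C') hPt hCt (g : lrpdm_X Γ)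
      = ∑ i, lrpdm_diff P' C' hP' hC' ((g * ρ i : SL(2, ℤ)) : lrpdm_X Γ') := by
    intro g
    rw [lrpdm_diff_mk]
    unfold lrpdm_tr
    rw [← Finset.sum_sub_distrib]
    rfl
  have hπ : ∀ (g : SL(2, ℤ)) (i : ι),
      lrpdm_diff P C hPr hCr ((g * ρ i : SL(2, ℤ)) : lrpdm_X Γ')
        = lrpdm_diff P C hP hC (g : lrpdm_X Γ) := by
    intro g i
    rw [lrpdm_diff_mk, lrpdm_diff_mk]
    have h1 := hP g ⟨ρ i, hρ i⟩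
    have h2 := hC g ⟨ρ i, hρ i⟩
    show P (g * ρ i) - C (g * ρ i) = P g - C g
    rw [h1, h2]; ring
  have e1 : lrpdm_diff (lrpdm_tr ρ P') (lrpdm_tr ρ C') hPt hCt ξ
      = ∑ i, lrpdm_diff P' C' hP' hC' ((Quotient.out ξ * ρ i : SL(2, ℤ)) : lrpdm_X Γ') := by
    rw [← hy, hout]
  have e2 : lrpdm_diff (lrpdm_tr ρ P') (lrpdm_tr ρ C') hPt hCt (T • ξ)
      = ∑ i, lrpdm_diff P' C' hP' hC'
          (T • ((Quotient.out ξ * ρ i : SL(2, ℤ)) : lrpdm_X Γ')) := by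
    conv_lhs => rw [← hout, lrpdm_smul_mk, hy]
    refine Finset.sum_congr rfl (fun i _ => ?_)
    rw [lrpdm_smul_mk, mul_assoc]
  have e3 : ∀ i, lrpdm_diff P C hPr hCr ((Quotient.out ξ * ρ i : SL(2, ℤ)) : lrpdm_X Γ')
      = lrpdm_diff P C hP hC ξ := fun i => by rw [hπ, hout]
  have e4 : ∀ i, lrpdm_diff P C hPr hCr
      (T • ((Quotient.out ξ * ρ i : SL(2, ℤ)) : lrpdm_X Γ'))
      = lrpdm_diff P C hP hC (T • ξ) := fun i => by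
    rw [lrpdm_smul_mk, ← mul_assoc, hπ, ← lrpdm_smul_mk, hout]
  rw [e1, e2, Finset.mul_sum, Finset.mul_sum, ← Finset.sum_sub_distrib]
  refine Finset.sum_congr rfl (fun i _ => ?_)
  rw [e3, e4]

end Cores

end Fermat.Agent.LR
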