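/-
LR / [PD], model side, part 1 (prefix `lrpdm_`): primitives of a character of a subgroup
`Γ ≤ SL(2, ℤ)`.

* `lrpdm_H Γ k` : the characters `Γ → k` killing all `Γ`-elements of the form `g⁻¹ σ ^ n g`,
  `σ ∈ {S, S T, T}` (elliptic, parabolic, `± 1`);
* `lrpdm_IsPrim Γ x F` : `F (g γ) = F g + x γ`;
* `lrpdm_exists_prim_inv` : a `σ`-left-invariant primitive exists as soon as `x` kills the
  conjugates of the powers of `σ` lying in `Γ`;
* `lrpdm_const_of_inv` : a function on `SL(2, ℤ)` left-invariant under `S` and `S T` is constant.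
-/
import Mathlib

set_option autoImplicit false

open scoped MatrixGroups
open ModularGroup

namespace Fermat.Agent.LR

/-- `U = S T`, of order `6` (`U ^ 3 = -1`). -/
abbrev lrpdm_U : SL(2, ℤ) := S * T

theorem lrpdm_S_mul_S : (S * S : SL(2, ℤ)) = -1 := by decide

theorem lrpdm_U_mul_Tinv : lrpdm_U * T⁻¹ = S := by
  unfold lrpdm_U; group

theorem lrpdm_T_eq : (T : SL(2, ℤ)) = S⁻¹ * lrpdm_U := by
  unfold lrpdm_U; group

section Prim

variable {k : Type*} [AddCommGroup k] (Γ : Subgroup SL(2, ℤ))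

/-- evaluation of an additive character -/
def lrpdm_ev (x : Additive Γ →+ k) (γ : Γ) : k := x (Additive.ofMul γ)

theorem lrpdm_ev_mul (x : Additive Γ →+ k) (γ γ' : Γ) :
    lrpdm_ev Γ x (γ * γ') = lrpdm_ev Γ x γ + lrpdm_ev Γ x γ' := by
  unfold lrpdm_ev; rw [ofMul_mul, map_add]

theorem lrpdm_ev_one (x : Additive Γ →+ k) : lrpdm_ev Γ x 1 = 0 := by
  unfold lrpdm_ev; rw [ofMul_one, map_zero]

theorem lrpdm_ev_inv (x : Additive Γ →+ k) (γ : Γ) :
    lrpdm_ev Γ x γ⁻¹ = - lrpdm_ev Γ x γ := by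
  unfold lrpdm_ev; rw [ofMul_inv, map_neg]

/-- `F` is a primitive of `x`: `F (g γ) = F g + x γ`. -/
def lrpdm_IsPrim (x : Additive Γ →+ k) (F : SL(2, ℤ) → k) : Prop :=
  ∀ (g : SL(2, ℤ)) (γ : Γ), F (g * γ) = F g + lrpdm_ev Γ x γ

/-- `x` kills the conjugates of the powers of `σ` lying in `Γ`. -/
def lrpdm_Kills (x : Additive Γ →+ k) (σ : SL(2, ℤ)) : Prop :=
  ∀ (g : SL(2, ℤ)) (n : ℤ) (h : g⁻¹ * σ ^ n * g ∈ Γ), lrpdm_ev Γ x ⟨_, h⟩ = 0

variable {Γ}

theorem lrpdm_IsPrim.sub_const {x : Additive Γ →+ k} {F F' : SL(2, ℤ) → k}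
    (hF : lrpdm_IsPrim Γ x F) (hF' : lrpdm_IsPrim Γ x F') (g : SL(2, ℤ)) (γ : Γ) :
    F (g * γ) - F' (g * γ) = F g - F' g := by
  rw [hF, hF']; abel

/-- A `σ`-left-invariant primitive of `x` exists when `x` kills the conjugates of the powers of
`σ` lying in `Γ`. -/
theorem lrpdm_exists_prim_inv (x : Additive Γ →+ k) (σ : SL(2, ℤ)) (hσ : lrpdm_Kills Γ x σ) :
    ∃ F : SL(2, ℤ) → k, lrpdm_IsPrim Γ x F ∧ ∀ g, F (σ * g) = F g := by
  classical
  -- the equivalence relation `g' = σ ^ n * g * γ`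
  let r : Setoid SL(2, ℤ) :=
    { r := fun g g' => ∃ (n : ℤ) (γ : Γ), g' = σ ^ n * g * γ
      iseqv := by
        refine ⟨fun g => ⟨0, 1, by simp⟩, ?_, ?_⟩
        · rintro g g' ⟨n, γ, rfl⟩
          refine ⟨-n, γ⁻¹, ?_⟩
          rw [Subgroup.coe_inv, zpow_neg]; group
        · rintro g g' g'' ⟨n, γ, rfl⟩ ⟨m, γ', rfl⟩
          refine ⟨m + n, γ * γ', ?_⟩
          rw [Subgroup.coe_mul, zpow_add]; group }
  let rep : SL(2, ℤ) → SL(2, ℤ) := fun g => (Quotient.out (s := r) (Quotient.mk r g))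
  have hrep : ∀ g, ∃ (n : ℤ) (γ : Γ), g = σ ^ n * rep g * γ := fun g =>
    (Quotient.exact (s := r) (Quotient.out_eq (s := r) (Quotient.mk r g)) : r.r (rep g) g)
  have hrep_eq : ∀ g g', r.r g g' → rep g = rep g' := fun g g' h => by
    show Quotient.out (s := r) (Quotient.mk r g) = Quotient.out (s := r) (Quotient.mk r g')
    rw [Quotient.sound (s := r) h]
  -- the key well-definedness statement
  have key : ∀ (r₀ : SL(2, ℤ)) (n m : ℤ) (γ γ' : Γ),
      σ ^ n * r₀ * γ = σ ^ m * r₀ * γ' → lrpdm_ev Γ x γ = lrpdm_ev Γ x γ' := by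
    intro r₀ n m γ γ' h
    have h1 : r₀⁻¹ * σ ^ (n - m) * r₀ = (γ' * γ⁻¹ : Γ) := by
      rw [Subgroup.coe_mul, Subgroup.coe_inv, zpow_sub]
      have : σ ^ n * r₀ = σ ^ m * r₀ * γ' * (γ : SL(2, ℤ))⁻¹ := by rw [← h]; group
      calc r₀⁻¹ * (σ ^ n * (σ ^ m)⁻¹) * r₀
          = r₀⁻¹ * (σ ^ m)⁻¹ * (σ ^ n * r₀) := by
            have hc : Commute (σ ^ n) ((σ ^ m)⁻¹) :=
              ((Commute.refl σ).zpow_zpow n m).inv_right
            rw [hc.eq]; group
        _ = r₀⁻¹ * (σ ^ m)⁻¹ * (σ ^ m * r₀ * γ' * (γ : SL(2, ℤ))⁻¹) := by rw [this]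
        _ = γ' * (γ : SL(2, ℤ))⁻¹ := by group
    have hmem : r₀⁻¹ * σ ^ (n - m) * r₀ ∈ Γ := by rw [h1]; exact (γ' * γ⁻¹).2
    have h0 := hσ r₀ (n - m) hmem
    have h2 : (⟨_, hmem⟩ : Γ) = γ' * γ⁻¹ := Subtype.ext h1
    rw [h2, lrpdm_ev_mul, lrpdm_ev_inv] at h0
    have : lrpdm_ev Γ x γ' = lrpdm_ev Γ x γ := by
      have := h0
      rwa [← sub_eq_add_neg, sub_eq_zero] at this
    exact this.symm
  choose nf γf hf using hrep
  refine ⟨fun g => lrpdm_ev Γ x (γf g), ?_, ?_⟩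
  · intro g γ₀
    have hn := hf g
    have hn' := hf (g * γ₀)
    have hr : rep (g * γ₀) = rep g := (hrep_eq g (g * γ₀) ⟨0, γ₀, by simp⟩).symm
    rw [hr] at hn'
    have h3 : σ ^ nf (g * γ₀) * rep g * γf (g * γ₀)
        = σ ^ nf g * rep g * ((γf g * γ₀ : Γ) : SL(2, ℤ)) := by
      rw [← hn', Subgroup.coe_mul, ← mul_assoc, ← hn]
    show lrpdm_ev Γ x (γf (g * γ₀)) = lrpdm_ev Γ x (γf g) + lrpdm_ev Γ x γ₀
    rw [key (rep g) _ _ _ _ h3, lrpdm_ev_mul]
  · intro g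
    have hn := hf g
    have hn' := hf (σ * g)
    have hr : rep (σ * g) = rep g := (hrep_eq g (σ * g) ⟨1, 1, by simp⟩).symm
    rw [hr] at hn'
    have h3 : σ ^ nf (σ * g) * rep g * γf (σ * g) = σ ^ (nf g + 1) * rep g * γf g := by
      rw [← hn', zpow_add_one]
      conv_lhs => rw [hn]
      have hc : Commute (σ ^ nf g) σ := (Commute.refl σ).zpow_left (nf g)
      rw [← mul_assoc, ← mul_assoc, hc.eq]
    show lrpdm_ev Γ x (γf (σ * g)) = lrpdm_ev Γ x (γf g)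
    exact key (rep g) _ _ _ _ h3

/-- A function on `SL(2, ℤ)` left-invariant under `S` and `U = S T` is constant. -/
theorem lrpdm_const_of_inv {A : Type*} (f : SL(2, ℤ) → A) (hS : ∀ g, f (S * g) = f g)
    (hU : ∀ g, f (lrpdm_U * g) = f g) (g : SL(2, ℤ)) : f g = f 1 := by
  have hS' : ∀ g, f (S⁻¹ * g) = f g := fun g => by
    have := hS (S⁻¹ * g); rw [mul_inv_cancel_left] at this; exact this.symm
  have hT : ∀ g, f (T * g) = f g := fun g => by
    rw [lrpdm_T_eq, mul_assoc, hS', hU]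
  have hT' : ∀ g, f (T⁻¹ * g) = f g := fun g => by
    have := hT (T⁻¹ * g); rw [mul_inv_cancel_left] at this; exact this.symm
  have hmem : g ∈ Subgroup.closure ({S, T} : Set SL(2, ℤ)) := by
    rw [SpecialLinearGroup.SL2Z_generators]; trivial
  have key : ∀ a : SL(2, ℤ), a ∈ Subgroup.closure ({S, T} : Set SL(2, ℤ)) →
      ∀ h, f (a * h) = f h := by
    intro a ha
    induction ha using Subgroup.closure_induction with
    | mem y hy =>
      rcases hy with rfl | rfl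
      · exact hS
      · exact hT
    | one => intro h; rw [one_mul]
    | mul a b _ _ iha ihb => intro h; rw [mul_assoc, iha, ihb]
    | inv a _ iha =>
      intro h
      have := iha (a⁻¹ * h); rw [mul_inv_cancel_left] at this; exact this.symm
  have := key g hmem 1
  rwa [mul_one] at this

end Prim

end Fermat.Agent.LR
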