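/-
LR / [PD], model side, part 2 (prefix `lrpdm_`): the explicit alternating form
`ω(y, y') = ½ ∑_ξ (y (T ξ) y' ξ - y ξ y' (T ξ))` on functions on `X = SL(2, ℤ) ⧸ Γ`, and the
vanishing statements that make `Ω(x, x') := ω(P_x - C_x, P_x' - C_x')` independent of the choice
of the `U`-invariant primitives `P` and the `T`-invariant primitives `C`.
-/
import Fermat.Agent.LR.PD.Model.Prim

set_option autoImplicit false

open scoped MatrixGroups
open ModularGroup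

namespace Fermat.Agent.LR

section Form

variable {k : Type*} [Field k] (Γ : Subgroup SL(2, ℤ))

/-- `X = SL(2, ℤ) ⧸ Γ` (left cosets, left action). -/
abbrev lrpdm_X := SL(2, ℤ) ⧸ Γ

noncomputable instance lrpdm_fintypeX [Γ.FiniteIndex] : Fintype (lrpdm_X Γ) :=
  Subgroup.fintypeQuotientOfFiniteIndex

variable {Γ}

theorem lrpdm_smul_mk (g h : SL(2, ℤ)) : g • (h : lrpdm_X Γ) = ((g * h : SL(2, ℤ)) : lrpdm_X Γ) :=
  rfl

/-- the difference of two primitives of the same character, as a function on `X` -/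
def lrpdm_diff {x : Additive Γ →+ k} (F F' : SL(2, ℤ) → k) (hF : lrpdm_IsPrim Γ x F)
    (hF' : lrpdm_IsPrim Γ x F') : lrpdm_X Γ → k :=
  fun ξ => Quotient.liftOn' ξ (fun g => F g - F' g) (by
    intro a b hab
    rw [QuotientGroup.leftRel_apply] at hab
    have hb : b = a * ((⟨a⁻¹ * b, hab⟩ : Γ) : SL(2, ℤ)) := by simp
    show F a - F' a = F b - F' b
    rw [hb, hF, hF']
    abel)

@[simp] theorem lrpdm_diff_mk {x : Additive Γ →+ k} (F F' : SL(2, ℤ) → k)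
    (hF : lrpdm_IsPrim Γ x F) (hF' : lrpdm_IsPrim Γ x F') (g : SL(2, ℤ)) :
    lrpdm_diff F F' hF hF' (g : lrpdm_X Γ) = F g - F' g := rfl

variable [Γ.FiniteIndex]

theorem lrpdm_sum_smul (g : SL(2, ℤ)) (f : lrpdm_X Γ → k) :
    ∑ ξ, f (g • ξ) = ∑ ξ, f ξ :=
  Equiv.sum_comp (MulAction.toPerm g) f

/-- the alternating form on functions on `X` -/
noncomputable def lrpdm_omega (y y' : lrpdm_X Γ → k) : k :=
  (2 : k)⁻¹ * ∑ ξ, (y (T • ξ) * y' ξ - y ξ * y' (T • ξ))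

theorem lrpdm_omega_add_left (y₁ y₂ y' : lrpdm_X Γ → k) :
    lrpdm_omega (y₁ + y₂) y' = lrpdm_omega y₁ y' + lrpdm_omega y₂ y' := by
  unfold lrpdm_omega
  rw [← mul_add, ← Finset.sum_add_distrib]
  congr 1
  refine Finset.sum_congr rfl (fun ξ _ => ?_)
  simp only [Pi.add_apply]; ring

theorem lrpdm_omega_add_right (y y₁ y₂ : lrpdm_X Γ → k) :
    lrpdm_omega y (y₁ + y₂) = lrpdm_omega y y₁ + lrpdm_omega y y₂ := by
  unfold lrpdm_omega
  rw [← mul_add, ← Finset.sum_add_distrib]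
  congr 1
  refine Finset.sum_congr rfl (fun ξ _ => ?_)
  simp only [Pi.add_apply]; ring

theorem lrpdm_omega_smul_left (c : k) (y y' : lrpdm_X Γ → k) :
    lrpdm_omega (c • y) y' = c * lrpdm_omega y y' := by
  unfold lrpdm_omega
  have : ∑ ξ : lrpdm_X Γ, ((c • y) (T • ξ) * y' ξ - (c • y) ξ * y' (T • ξ))
      = c * ∑ ξ : lrpdm_X Γ, (y (T • ξ) * y' ξ - y ξ * y' (T • ξ)) := by
    rw [Finset.mul_sum]
    refine Finset.sum_congr rfl (fun ξ _ => ?_)
    simp only [Pi.smul_apply, smul_eq_mul]; ring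
  rw [this]; ring

theorem lrpdm_omega_smul_right (c : k) (y y' : lrpdm_X Γ → k) :
    lrpdm_omega y (c • y') = c * lrpdm_omega y y' := by
  unfold lrpdm_omega
  have : ∑ ξ : lrpdm_X Γ, (y (T • ξ) * (c • y') ξ - y ξ * (c • y') (T • ξ))
      = c * ∑ ξ : lrpdm_X Γ, (y (T • ξ) * y' ξ - y ξ * y' (T • ξ)) := by
    rw [Finset.mul_sum]
    refine Finset.sum_congr rfl (fun ξ _ => ?_)
    simp only [Pi.smul_apply, smul_eq_mul]; ring
  rw [this]; ring

theorem lrpdm_omega_antisymm (y y' : lrpdm_X Γ → k) :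
    lrpdm_omega y' y = - lrpdm_omega y y' := by
  unfold lrpdm_omega
  rw [← mul_neg, ← Finset.sum_neg_distrib]
  congr 1
  refine Finset.sum_congr rfl (fun ξ _ => ?_)
  ring

theorem lrpdm_omega_neg_left (y y' : lrpdm_X Γ → k) :
    lrpdm_omega (-y) y' = - lrpdm_omega y y' := by
  have := lrpdm_omega_smul_left (-1 : k) y y'
  simpa using this

theorem lrpdm_omega_sub_left (y₁ y₂ y' : lrpdm_X Γ → k) :
    lrpdm_omega (y₁ - y₂) y' = lrpdm_omega y₁ y' - lrpdm_omega y₂ y' := by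
  rw [sub_eq_add_neg, lrpdm_omega_add_left, lrpdm_omega_neg_left, ← sub_eq_add_neg]

theorem lrpdm_omega_sub_right (y y₁ y₂ : lrpdm_X Γ → k) :
    lrpdm_omega y (y₁ - y₂) = lrpdm_omega y y₁ - lrpdm_omega y y₂ := by
  rw [lrpdm_omega_antisymm, lrpdm_omega_sub_left, lrpdm_omega_antisymm y y₁,
    lrpdm_omega_antisymm y y₂]
  ring

/-- `ω(y, y') = ½ ∑ (y (T ξ) - y (T⁻¹ ξ)) y' ξ`. -/
theorem lrpdm_omega_eq (y y' : lrpdm_X Γ → k) :
    lrpdm_omega y y' = (2 : k)⁻¹ * ∑ ξ, (y (T • ξ) - y (T⁻¹ • ξ)) * y' ξ := by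
  unfold lrpdm_omega
  congr 1
  have h1 : ∑ ξ : lrpdm_X Γ, y ξ * y' (T • ξ) = ∑ ξ : lrpdm_X Γ, y (T⁻¹ • ξ) * y' ξ := by
    rw [← lrpdm_sum_smul T⁻¹ (fun ξ => y ξ * y' (T • ξ))]
    refine Finset.sum_congr rfl (fun ξ _ => ?_)
    rw [smul_inv_smul]
  rw [Finset.sum_sub_distrib, h1, ← Finset.sum_sub_distrib]
  refine Finset.sum_congr rfl (fun ξ _ => ?_)
  ring

/-- `T`-invariant functions are in the radical. -/
theorem lrpdm_omega_invT_left (v y' : lrpdm_X Γ → k) (hv : ∀ ξ, v (T • ξ) = v ξ) :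
    lrpdm_omega v y' = 0 := by
  rw [lrpdm_omega_eq]
  have : ∀ ξ, v (T⁻¹ • ξ) = v ξ := fun ξ => by
    have := hv (T⁻¹ • ξ); rw [smul_inv_smul] at this; exact this.symm
  simp [hv, this]

/-- `U`-invariant functions pair to zero with `P' - C'` when the character has an `S`-invariant
primitive `E'`. -/
theorem lrpdm_omega_invU_left {x' : Additive Γ →+ k} (u : lrpdm_X Γ → k)
    (hu : ∀ ξ, u (lrpdm_U • ξ) = u ξ) (P' C' E' : SL(2, ℤ) → k)
    (hP' : lrpdm_IsPrim Γ x' P') (hC' : lrpdm_IsPrim Γ x' C') (hE' : lrpdm_IsPrim Γ x' E')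
    (hPU : ∀ g, P' (lrpdm_U * g) = P' g) (hCT : ∀ g, C' (T * g) = C' g)
    (hES : ∀ g, E' (S * g) = E' g) :
    lrpdm_omega u (lrpdm_diff P' C' hP' hC') = 0 := by
  rw [lrpdm_omega_antisymm, lrpdm_omega_eq, neg_eq_zero]
  set w0 := lrpdm_diff P' E' hP' hE' with hw0
  -- the function `d`
  have hCT' : ∀ g, C' (T⁻¹ * g) = C' g := fun g => by
    have := hCT (T⁻¹ * g); rw [mul_inv_cancel_left] at this; exact this.symm
  have hES' : ∀ g, E' (S⁻¹ * g) = E' g := fun g => by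
    have := hES (S⁻¹ * g); rw [mul_inv_cancel_left] at this; exact this.symm
  have hPS : ∀ g, P' (T⁻¹ * g) = P' (S * g) := fun g => by
    have := hPU (T⁻¹ * g)
    rw [← mul_assoc, lrpdm_U_mul_Tinv] at this
    exact this.symm
  have hd : ∀ ξ : lrpdm_X Γ,
      lrpdm_diff P' C' hP' hC' (T • ξ) - lrpdm_diff P' C' hP' hC' (T⁻¹ • ξ)
        = (w0 ξ - w0 (lrpdm_U • ξ)) + (w0 (S⁻¹ • lrpdm_U • ξ) - w0 (S • ξ)) := by
    intro ξ
    induction ξ using QuotientGroup.induction_on with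
    | H g =>
      simp only [lrpdm_smul_mk, lrpdm_diff_mk, hw0]
      rw [hCT, hCT', hPS]
      have e1 : T * g = S⁻¹ * (lrpdm_U * g) := by rw [lrpdm_T_eq, mul_assoc]
      rw [e1, hES', hES, hPU]
      ring
  have hsum : ∀ (f : lrpdm_X Γ → k), ∑ ξ, u ξ * f (lrpdm_U • ξ) = ∑ ξ, u ξ * f ξ := by
    intro f
    rw [← lrpdm_sum_smul lrpdm_U (fun ξ => u ξ * f ξ)]
    refine Finset.sum_congr rfl (fun ξ _ => ?_)
    rw [hu]
  have hneg : ∀ ξ : lrpdm_X Γ, w0 (S⁻¹ • ξ) = w0 (S • ξ) := by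
    intro ξ
    induction ξ using QuotientGroup.induction_on with
    | H g =>
      simp only [lrpdm_smul_mk, lrpdm_diff_mk, hw0]
      rw [hES', hES]
      have : S⁻¹ * g = lrpdm_U * (lrpdm_U * (lrpdm_U * (S * g))) := by
        have h3 : lrpdm_U * lrpdm_U * lrpdm_U = (-1 : SL(2, ℤ)) := by decide
        have h4 : (S⁻¹ : SL(2, ℤ)) = -1 * S := by decide
        rw [← mul_assoc, ← mul_assoc, h3, h4, mul_assoc]
      rw [this, hPU, hPU, hPU]
  have key : ∑ ξ, (lrpdm_diff P' C' hP' hC' (T • ξ) - lrpdm_diff P' C' hP' hC' (T⁻¹ • ξ)) * u ξ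
      = 0 := by
    simp only [hd]
    have : ∀ ξ : lrpdm_X Γ,
        ((w0 ξ - w0 (lrpdm_U • ξ)) + (w0 (S⁻¹ • lrpdm_U • ξ) - w0 (S • ξ))) * u ξ
        = (u ξ * w0 ξ - u ξ * w0 (lrpdm_U • ξ))
          + (u ξ * (fun ζ => w0 (S⁻¹ • ζ)) (lrpdm_U • ξ) - u ξ * w0 (S • ξ)) := by
      intro ξ; ring
    simp only [this]
    rw [Finset.sum_add_distrib, Finset.sum_sub_distrib, Finset.sum_sub_distrib, hsum w0,
      hsum (fun ζ => w0 (S⁻¹ • ζ))]
    simp only [hneg]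
    ring
  rw [key, mul_zero]

end Form

end Fermat.Agent.LR
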