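/-
LR / [PD], model side, part 3 (prefix `lrpdm_`): the radical of the alternating form `ω` on
`Y = ker A`, `(A y) ξ = (y (T⁻¹ ξ) - y ξ) + (y (T⁻¹ S ξ) - y (S ξ))`, is the sum of the
`U`-invariant and the `T`-invariant functions (when `-1 ∈ Γ` and `2 ≠ 0` in `k`).
-/
import Fermat.Agent.LR.PD.Model.Form

set_option autoImplicit false

open scoped MatrixGroups
open ModularGroup

namespace Fermat.Agent.LR

section Nondeg

variable {k : Type*} [Field k] {Γ : Subgroup SL(2, ℤ)}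

/-- the linear map whose kernel is `Y` -/
def lrpdm_A : (lrpdm_X Γ → k) →ₗ[k] (lrpdm_X Γ → k) where
  toFun y ξ := (y (T⁻¹ • ξ) - y ξ) + (y (T⁻¹ • S • ξ) - y (S • ξ))
  map_add' y₁ y₂ := by
    funext ξ
    simp only [Pi.add_apply]
    ring
  map_smul' c y := by
    funext ξ
    simp only [Pi.smul_apply, smul_eq_mul, RingHom.id_apply]
    ring

theorem lrpdm_A_apply (y : lrpdm_X Γ → k) (ξ : lrpdm_X Γ) :
    lrpdm_A y ξ = (y (T⁻¹ • ξ) - y ξ) + (y (T⁻¹ • S • ξ) - y (S • ξ)) := rfl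

variable (k Γ) in
/-- `Y`: the functions `y` on `X` with `η ξ := y (T⁻¹ ξ) - y ξ` satisfying `η (S ξ) = - η ξ`. -/
def lrpdm_Y : Submodule k (lrpdm_X Γ → k) := LinearMap.ker lrpdm_A

theorem lrpdm_mem_Y (y : lrpdm_X Γ → k) :
    y ∈ lrpdm_Y k Γ ↔ ∀ ξ, (y (T⁻¹ • ξ) - y ξ) + (y (T⁻¹ • S • ξ) - y (S • ξ)) = 0 := by
  unfold lrpdm_Y
  rw [LinearMap.mem_ker]
  constructor
  · intro h ξ
    have := congrFun h ξ
    simpa [lrpdm_A_apply] using this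
  · intro h
    funext ξ
    simpa [lrpdm_A_apply] using h ξ

theorem lrpdm_S_smul_S_smul (hneg : (-1 : SL(2, ℤ)) ∈ Γ) (ξ : lrpdm_X Γ) : S • S • ξ = ξ := by
  induction ξ using QuotientGroup.induction_on with
  | H g =>
    rw [lrpdm_smul_mk, lrpdm_smul_mk, ← mul_assoc, lrpdm_S_mul_S, QuotientGroup.eq]
    have : (-1 * g)⁻¹ * g = (-1 : SL(2, ℤ)) := by
      have h1 : (-1 : SL(2, ℤ)) * g = g * (-1) := by
        rw [neg_mul, mul_neg, one_mul, mul_one]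
      have h2 : ((-1 : SL(2, ℤ)))⁻¹ = -1 := by decide
      rw [h1, mul_inv_rev, h2, mul_assoc, inv_mul_cancel, mul_one]
    rw [this]
    exact hneg

theorem lrpdm_Sinv_smul (hneg : (-1 : SL(2, ℤ)) ∈ Γ) (ξ : lrpdm_X Γ) : S⁻¹ • ξ = S • ξ := by
  rw [inv_smul_eq_iff, lrpdm_S_smul_S_smul hneg]

variable [Γ.FiniteIndex]

/-- change of variables in a sum over `X` -/
theorem lrpdm_sum_smul_mul (g : SL(2, ℤ)) (a b : lrpdm_X Γ → k) :
    ∑ ξ, a (g • ξ) * b ξ = ∑ ζ, a ζ * b (g⁻¹ • ζ) := by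
  rw [← lrpdm_sum_smul g (fun ζ => a ζ * b (g⁻¹ • ζ))]
  refine Finset.sum_congr rfl (fun ξ _ => ?_)
  rw [inv_smul_smul]

/-- the adjoint of `A` for the dot product -/
theorem lrpdm_sum_A_mul (hneg : (-1 : SL(2, ℤ)) ∈ Γ) (y' z : lrpdm_X Γ → k) :
    ∑ ξ, lrpdm_A y' ξ * z ξ
      = ∑ ζ, y' ζ * ((z (T • ζ) + z (S • T • ζ)) - (z ζ + z (S • ζ))) := by
  have e1 : ∑ ξ, y' (T⁻¹ • ξ) * z ξ = ∑ ζ, y' ζ * z (T • ζ) := by
    rw [lrpdm_sum_smul_mul, inv_inv]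
  have e2 : ∑ ξ, y' (T⁻¹ • S • ξ) * z ξ = ∑ ζ, y' ζ * z (S • T • ζ) := by
    have : ∀ ξ : lrpdm_X Γ, T⁻¹ • S • ξ = (T⁻¹ * S) • ξ := fun ξ => (mul_smul _ _ _).symm
    simp only [this]
    rw [lrpdm_sum_smul_mul]
    refine Finset.sum_congr rfl (fun ζ _ => ?_)
    rw [mul_inv_rev, inv_inv, mul_smul, lrpdm_Sinv_smul hneg]
  have e3 : ∑ ξ, y' (S • ξ) * z ξ = ∑ ζ, y' ζ * z (S • ζ) := by
    rw [lrpdm_sum_smul_mul]
    refine Finset.sum_congr rfl (fun ζ _ => ?_)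
    rw [lrpdm_Sinv_smul hneg]
  have : ∀ ξ : lrpdm_X Γ, lrpdm_A y' ξ * z ξ
      = (y' (T⁻¹ • ξ) * z ξ - y' ξ * z ξ) + (y' (T⁻¹ • S • ξ) * z ξ - y' (S • ξ) * z ξ) := by
    intro ξ; rw [lrpdm_A_apply]; ring
  simp only [this]
  rw [Finset.sum_add_distrib, Finset.sum_sub_distrib, Finset.sum_sub_distrib, e1, e2, e3,
    ← Finset.sum_sub_distrib, ← Finset.sum_sub_distrib, ← Finset.sum_add_distrib]
  refine Finset.sum_congr rfl (fun ζ _ => ?_)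
  ring

/-- **The radical of `ω` on `Y`.** -/
theorem lrpdm_radical (hneg : (-1 : SL(2, ℤ)) ∈ Γ) (h2 : (2 : k) ≠ 0) (y : lrpdm_X Γ → k)
    (hy : y ∈ lrpdm_Y k Γ) (horth : ∀ y' ∈ lrpdm_Y k Γ, lrpdm_omega y y' = 0) :
    ∃ u v : lrpdm_X Γ → k, (∀ ξ, u (lrpdm_U • ξ) = u ξ) ∧ (∀ ξ, v (T • ξ) = v ξ) ∧
      y = u + v := by
  classical
  -- the functional `φ y' = ∑ f ξ * y' ξ`, `f = (L_T - L_{T⁻¹}) y`
  let f : lrpdm_X Γ → k := fun ξ => y (T • ξ) - y (T⁻¹ • ξ)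
  let φ : Module.Dual k (lrpdm_X Γ → k) :=
    { toFun := fun y' => ∑ ξ, f ξ * y' ξ
      map_add' := fun a b => by
        rw [← Finset.sum_add_distrib]
        refine Finset.sum_congr rfl (fun ξ _ => ?_)
        simp only [Pi.add_apply]; ring
      map_smul' := fun c a => by
        rw [RingHom.id_apply, smul_eq_mul, Finset.mul_sum]
        refine Finset.sum_congr rfl (fun ξ _ => ?_)
        simp only [Pi.smul_apply, smul_eq_mul]; ring }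
  have hφ : φ ∈ (LinearMap.ker (lrpdm_A (k := k) (Γ := Γ))).dualAnnihilator := by
    rw [Submodule.mem_dualAnnihilator]
    intro y' hy'
    have h0 := horth y' hy'
    rw [lrpdm_omega_eq] at h0
    have h3 : (2 : k)⁻¹ ≠ 0 := inv_ne_zero h2
    exact (mul_eq_zero.mp h0).resolve_left h3
  rw [← LinearMap.range_dualMap_eq_dualAnnihilator_ker] at hφ
  obtain ⟨ψ, hψ⟩ := hφ
  -- represent `ψ` by a function `z`
  let z : lrpdm_X Γ → k := fun ξ => ψ (fun j => if ξ = j then 1 else 0)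
  have hψz : ∀ w : lrpdm_X Γ → k, ψ w = ∑ ξ, w ξ * z ξ := fun w => by
    rw [LinearMap.pi_apply_eq_sum_univ ψ w]
    rfl
  have hmain : ∀ y' : lrpdm_X Γ → k, ∑ ξ, f ξ * y' ξ = ∑ ξ, lrpdm_A y' ξ * z ξ := by
    intro y'
    have := LinearMap.congr_fun hψ y'
    rw [LinearMap.dualMap_apply, hψz] at this
    exact this.symm
  -- pointwise identity
  let z' : lrpdm_X Γ → k := fun ζ => z ζ + z (S • ζ)
  have hz'S : ∀ ζ, z' (S • ζ) = z' ζ := fun ζ => by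
    show z (S • ζ) + z (S • S • ζ) = z ζ + z (S • ζ)
    rw [lrpdm_S_smul_S_smul hneg]; ring
  have hpt : ∀ ζ, f ζ = z' (T • ζ) - z' ζ := by
    intro ζ
    have h := hmain (Pi.single ζ 1)
    rw [lrpdm_sum_A_mul hneg] at h
    simp only [Pi.single_apply, mul_ite, mul_one, mul_zero, ite_mul, one_mul, zero_mul,
      Finset.sum_ite_eq', Finset.mem_univ, if_true] at h
    exact h
  -- the `T`-invariant function `c`
  let c : lrpdm_X Γ → k := fun ξ => y ξ + y (T⁻¹ • ξ) - z' ξ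
  have hcT : ∀ ξ, c (T • ξ) = c ξ := by
    intro ξ
    have := hpt ξ
    show y (T • ξ) + y (T⁻¹ • T • ξ) - z' (T • ξ) = y ξ + y (T⁻¹ • ξ) - z' ξ
    rw [inv_smul_smul]
    have hf : f ξ = y (T • ξ) - y (T⁻¹ • ξ) := rfl
    rw [hf] at this
    linear_combination this
  have hcT' : ∀ ξ, c (T⁻¹ • ξ) = c ξ := fun ξ => by
    have := hcT (T⁻¹ • ξ); rw [smul_inv_smul] at this; exact this.symm
  have hY := (lrpdm_mem_Y y).mp hy
  refine ⟨fun ξ => y ξ - (2 : k)⁻¹ * c ξ, fun ξ => (2 : k)⁻¹ * c ξ, ?_, ?_, ?_⟩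
  · -- `U`-invariance from `y1 (T⁻¹ ξ) = y1 (S ξ)`
    have key : ∀ ξ, y (T⁻¹ • ξ) - (2 : k)⁻¹ * c (T⁻¹ • ξ) = y (S • ξ) - (2 : k)⁻¹ * c (S • ξ) := by
      intro ξ
      rw [hcT']
      have hc1 : c ξ - c (S • ξ) = 2 * (y (T⁻¹ • ξ) - y (S • ξ)) := by
        show (y ξ + y (T⁻¹ • ξ) - z' ξ) - (y (S • ξ) + y (T⁻¹ • S • ξ) - z' (S • ξ)) = _
        rw [hz'S]
        linear_combination (-1 : k) * hY ξ
      have : (2 : k)⁻¹ * (c ξ - c (S • ξ)) = y (T⁻¹ • ξ) - y (S • ξ) := by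
        rw [hc1, ← mul_assoc, inv_mul_cancel₀ h2, one_mul]
      linear_combination (-1 : k) * this
    intro ξ
    have := key (T • ξ)
    rw [inv_smul_smul] at this
    show y (lrpdm_U • ξ) - (2 : k)⁻¹ * c (lrpdm_U • ξ) = y ξ - (2 : k)⁻¹ * c ξ
    rw [this]
    unfold lrpdm_U
    rw [mul_smul]
  · intro ξ
    show (2 : k)⁻¹ * c (T • ξ) = (2 : k)⁻¹ * c ξ
    rw [hcT]
  · funext ξ
    simp only [Pi.add_apply]
    ring

end Nondeg

end Fermat.Agent.LR
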